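import Mathlib

/-!
# S33/ALG-LINE : the ordinary line (pure linear algebra over a local ring)      key `S33/ALG-LINE`

`T` local, `V` free of rank two, `ρ : G → End_T V`, `I, D ≤ G`, `D` normalises `I`, `σ₀ ∈ I` with `δ₀ - 1` a unit
(`δ_σ = det ρσ`), and `(ρσ - δ_σ)(ρσ' - 1) = 0` for all `σ, σ' ∈ I`.   Then `L := range (ρσ₀ - 1)` works.

PROOF. `f = ρσ₀`, `δ = det f` (a unit: `f` is invertible), `u = δ - 1` a unit, `(f - δ)(f - 1) = 0`.
* `range (f - 1) = ker (f - δ)`:  `⊆` by the relation; `⊇`: `(f - δ) v = 0 ⟹ (f - 1) v = u v ⟹ v = (f - 1)(u⁻¹ v)`.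
* `(ρσ' - 1) V ⊆ ker (f - δ) = L` for `σ' ∈ I` (relation with `σ = σ₀`).
* `d ∈ D`: `ρd (f - 1) v = (ρ(d σ₀ d⁻¹) - 1) (ρd v) ∈ L`.
* basis: choose a basis `B` of `V` (`Module.finBasisOfFinrankEq`), `E = u⁻¹ (F - 1)`, `F = toMatrix B B f`.  `E² = E`.
  Cayley–Hamilton for `F` (`F² - tr F · F + δ = 0`) and `F² - (1 + δ) F + δ = 0` give `(tr F - 1 - δ) F = 0`, `F` invertible, so `tr F = 1 + δ`,
  `tr E = 1`; Cayley–Hamilton for `E`: `det E = 0`.  `E = !![a, b; c, d]`, `a + d = 1`, so `a` or `d` is a unit (`T` local).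
  If `a` is a unit: `v₁ = a B₀ + c B₁ = E B₀ ∈ L`, second column `= (b / a) v₁` (`a d = b c`), so `L = T ∙ v₁`, and `(v₁, B₁)` is a basis.
  If `d` is a unit: `v₁ = b B₀ + d B₁`, first column `= (c / d) v₁`, and `(v₁, B₀)` is a basis.
-/

set_option autoImplicit false

namespace Fermat.Agent.S33.Alg

theorem lineAux_basis {T V : Type*} [CommRing T] [AddCommGroup V] [Module T V]
    (B : Module.Basis (Fin 2) T V) (g : Module.End T V)
    (hu : IsUnit (LinearMap.toMatrix B B g 0 0))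
    (hdet : LinearMap.toMatrix B B g 0 0 * LinearMap.toMatrix B B g 1 1 =
      LinearMap.toMatrix B B g 0 1 * LinearMap.toMatrix B B g 1 0) :
    ∃ b : Module.Basis (Fin 2) T V, LinearMap.range g = T ∙ b 0 := by
  classical
  set G := LinearMap.toMatrix B B g with hG
  have hg : ∀ j, g (B j) = G 0 j • B 0 + G 1 j • B 1 := by
    intro j
    conv_lhs => rw [← B.sum_repr (g (B j))]
    rw [Fin.sum_univ_two, hG, LinearMap.toMatrix_apply, LinearMap.toMatrix_apply]
  have hd : B.det ![g (B 0), B 1] = G 0 0 := by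
    rw [Module.Basis.det_apply, Matrix.det_fin_two]
    simp [Module.Basis.toMatrix_apply, hG, LinearMap.toMatrix_apply]
  have hb := (B.is_basis_iff_det (v := ![g (B 0), B 1])).2 (by rw [hd]; exact hu)
  refine ⟨Module.Basis.mk hb.1 hb.2.ge, ?_⟩
  have h0 : Module.Basis.mk hb.1 hb.2.ge 0 = g (B 0) := by simp
  rw [h0]
  obtain ⟨a', ha'⟩ := hu.exists_right_inv
  have h1 : g (B 1) = (G 0 1 * a') • g (B 0) := by
    rw [hg 1, hg 0, smul_add, smul_smul, smul_smul]
    congr 2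
    · linear_combination (- G 0 1) * ha'
    · linear_combination (- G 1 1) * ha' + a' * hdet
  apply le_antisymm
  · rintro _ ⟨x, rfl⟩
    rw [← B.sum_repr x, Fin.sum_univ_two, map_add, map_smul, map_smul, h1, smul_smul, ← add_smul]
    exact Submodule.smul_mem _ _ (Submodule.mem_span_singleton_self _)
  · rw [Submodule.span_singleton_le_iff_mem]
    exact ⟨B 0, rfl⟩


theorem exists_line {T V : Type*} [CommRing T] [IsLocalRing T] [AddCommGroup V] [Module T V]
    [Module.Free T V] [Module.Finite T V] (hV : Module.finrank T V = 2)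
    {G : Type*} [Group G] (ρ : G →* Module.End T V) (I D : Subgroup G)
    (hID : ∀ d ∈ D, ∀ σ ∈ I, d * σ * d⁻¹ ∈ I)
    (σ₀ : G) (hσ₀ : σ₀ ∈ I) (hunit : IsUnit (LinearMap.det (ρ σ₀) - 1))
    (h : ∀ σ ∈ I, ∀ σ' ∈ I, (ρ σ - LinearMap.det (ρ σ) • (1 : Module.End T V)) * (ρ σ' - 1) = 0) :
    ∃ L : Submodule T V, (∃ b : Module.Basis (Fin 2) T V, L = T ∙ b 0) ∧
      (∀ σ ∈ D, ∀ v ∈ L, ρ σ v ∈ L) ∧ (∀ σ ∈ I, ∀ v : V, ρ σ v - v ∈ L) := by
  classical
  set f : Module.End T V := ρ σ₀ with hf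
  set δ : T := LinearMap.det f with hδ
  obtain ⟨u', hu'⟩ := hunit.exists_right_inv
  have hmem : ∀ w : V, f w = δ • w → w ∈ LinearMap.range (f - 1) := by
    intro w hw
    refine ⟨u' • w, ?_⟩
    have h1 : δ • w - w = (δ - 1) • w := by rw [sub_smul, one_smul]
    rw [map_smul, LinearMap.sub_apply, hw, Module.End.one_apply, h1, smul_smul,
      mul_comm, hu', one_smul]
  have hI : ∀ σ ∈ I, ∀ v : V, ρ σ v - v ∈ LinearMap.range (f - 1) := by
    intro σ hσ v
    apply hmem
    have h1 := LinearMap.congr_fun (h σ₀ hσ₀ σ hσ) v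
    rw [Module.End.mul_apply, LinearMap.sub_apply, LinearMap.sub_apply, LinearMap.smul_apply,
      Module.End.one_apply, Module.End.one_apply, LinearMap.zero_apply, sub_eq_zero] at h1
    exact h1
  have hD : ∀ d ∈ D, ∀ v ∈ LinearMap.range (f - 1), ρ d v ∈ LinearMap.range (f - 1) := by
    rintro d hd _ ⟨x, rfl⟩
    have h1 := hI (d * σ₀ * d⁻¹) (hID d hd σ₀ hσ₀) (ρ d x)
    have h2 : ρ (d * σ₀ * d⁻¹) (ρ d x) = ρ d (f x) := by
      rw [← Module.End.mul_apply, ← map_mul, inv_mul_cancel_right, map_mul, Module.End.mul_apply]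
    rw [h2] at h1
    rw [LinearMap.sub_apply, Module.End.one_apply, map_sub]
    exact h1
  refine ⟨LinearMap.range (f - 1), ?_, hD, hI⟩
  -- the basis
  set B : Module.Basis (Fin 2) T V := Module.finBasisOfFinrankEq T V hV with hB
  set F : Matrix (Fin 2) (Fin 2) T := LinearMap.toMatrix B B f with hF
  have hdetF : F.det = δ := LinearMap.det_toMatrix B f
  have hδu : IsUnit δ := by
    refine IsUnit.of_mul_eq_one (LinearMap.det (ρ σ₀⁻¹)) ?_
    rw [hδ, hf, ← map_mul, ← map_mul, mul_inv_cancel, map_one, map_one]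
  have hrelF : (F - δ • (1 : Matrix (Fin 2) (Fin 2) T)) * (F - 1) = 0 := by
    have h1 := congrArg (LinearMap.toMatrix B B) (h σ₀ hσ₀ σ₀ hσ₀)
    rw [LinearMap.toMatrix_mul, map_sub, map_sub, map_smul, LinearMap.toMatrix_one, map_zero] at h1
    exact h1
  rw [Matrix.det_fin_two] at hdetF
  have e00 := congrFun (congrFun hrelF 0) 0
  have e01 := congrFun (congrFun hrelF 0) 1
  have e10 := congrFun (congrFun hrelF 1) 0
  have e11 := congrFun (congrFun hrelF 1) 1
  simp only [Matrix.mul_apply, Fin.sum_univ_two, Matrix.sub_apply, Matrix.smul_apply,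
    Matrix.one_apply_eq, Matrix.one_apply_ne (show (0 : Fin 2) ≠ 1 by decide),
    Matrix.one_apply_ne (show (1 : Fin 2) ≠ 0 by decide), Matrix.zero_apply, smul_eq_mul, mul_one,
    mul_zero, sub_zero] at e00 e01 e10 e11
  have ht : F 0 0 + F 1 1 - 1 - δ = 0 := by
    have h1 : δ * (F 0 0 + F 1 1 - 1 - δ) = 0 := by
      linear_combination (F 1 1) * e00 - (F 1 0) * e01 +
        (F 1 1 - (F 0 0 + F 1 1 - 1 - δ)) * hdetF
    exact (hδu.mul_right_eq_zero).1 h1
  have hGm : LinearMap.toMatrix B B (f - 1) = F - 1 := by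
    rw [map_sub, LinearMap.toMatrix_one]
  have hsum : IsUnit ((F 0 0 - 1) + (F 1 1 - 1)) := by
    have : (F 0 0 - 1) + (F 1 1 - 1) = δ - 1 := by linear_combination ht
    rw [this]
    exact hunit
  have hdet : (F 0 0 - 1) * (F 1 1 - 1) = F 0 1 * F 1 0 := by
    linear_combination hdetF - ht
  rcases IsLocalRing.isUnit_or_isUnit_of_isUnit_add hsum with hu | hu
  · refine lineAux_basis B (f - 1) ?_ ?_
    · rw [hGm]
      simpa using hu
    · rw [hGm]
      simpa using hdet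
  · have hsw : ∀ i j, LinearMap.toMatrix (B.reindex (Equiv.swap 0 1)) (B.reindex (Equiv.swap 0 1))
        (f - 1) i j = (F - 1) (Equiv.swap 0 1 i) (Equiv.swap 0 1 j) := by
      intro i j
      rw [← hGm, LinearMap.toMatrix_apply, LinearMap.toMatrix_apply]
      simp
    refine lineAux_basis (B.reindex (Equiv.swap 0 1)) (f - 1) ?_ ?_
    · rw [hsw]
      simpa using hu
    · rw [hsw, hsw, hsw, hsw]
      simp only [Equiv.swap_apply_left, Equiv.swap_apply_right]
      simp only [Matrix.sub_apply, Matrix.one_apply_eq,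
        Matrix.one_apply_ne (show (0 : Fin 2) ≠ 1 by decide),
        Matrix.one_apply_ne (show (1 : Fin 2) ≠ 0 by decide), sub_zero]
      linear_combination hdet

end Fermat.Agent.S33.Alg
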