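import Fermat.Agent.S33.Alg.Core

/-!
# key `S33/ALG-E` : `exists_idem`, `exists_mem_tors`
`exists_idem`: the chain `𝔪^s • ⊤` of submodules of the finite module `W` stabilises (`IsArtinian.monotone_stabilizes`), `N = 𝔪^s • ⊤ ≤ 𝔪 • N`;
`Submodule.exists_sub_one_mem_and_smul_eq_zero_of_fg_of_le_smul` gives `e`, `e - 1 ∈ 𝔪`, `e N = 0`.
`exists_mem_tors`: `j` minimal with `𝔪^j • Y = ⊥` (`j ≤ s`, `j ≠ 0`); a nonzero element of `𝔪^(j-1) • Y ≤ Y` is killed by `𝔪`.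

-/

set_option autoImplicit false

namespace Fermat.Agent.S33.Alg

variable {𝕋 W G k : Type*} [CommRing 𝕋] [AddCommGroup W] [Module 𝕋 W] [Group G] [Field k]
  {act : G →* Module.End 𝕋 W} {θ : 𝕋 →+* k} {r : G → Matrix (Fin 2) (Fin 2) k}
  {z : G → 𝕋} {c : G → ℕ}

/-- [S33/ALG-E] -/
theorem exists_idem [Finite W] (θ : 𝕋 →+* k) :
    ∃ (e : 𝕋) (s : ℕ), θ e = 1 ∧ ∀ x ∈ (RingHom.ker θ) ^ s, ∀ w : W, (x * e) • w = 0 := by
  have hart : IsArtinian 𝕋 W := inferInstance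
  let f : ℕ →o (Submodule 𝕋 W)ᵒᵈ :=
    ⟨fun s => OrderDual.toDual ((RingHom.ker θ) ^ s • (⊤ : Submodule 𝕋 W)), fun s t hst =>
      OrderDual.toDual_le_toDual.2 (Submodule.smul_mono_left (Ideal.pow_le_pow_right hst))⟩
  obtain ⟨s, hs⟩ := IsArtinian.monotone_stabilizes f
  have h1 : (RingHom.ker θ) ^ s • (⊤ : Submodule 𝕋 W) =
      (RingHom.ker θ) ^ (s + 1) • (⊤ : Submodule 𝕋 W) := hs (s + 1) (Nat.le_succ s)
  have h2 : (RingHom.ker θ) ^ s • (⊤ : Submodule 𝕋 W) ≤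
      RingHom.ker θ • ((RingHom.ker θ) ^ s • (⊤ : Submodule 𝕋 W)) := by
    rw [← Submodule.mul_smul, ← pow_succ', ← h1]
  obtain ⟨e, he1, he2⟩ := Submodule.exists_sub_one_mem_and_smul_eq_zero_of_fg_of_le_smul
    (RingHom.ker θ) _ (Submodule.FG.of_finite) h2
  refine ⟨e, s, ?_, fun x hx w => ?_⟩
  · rw [RingHom.mem_ker, map_sub, map_one, sub_eq_zero] at he1
    exact he1
  · rw [mul_comm, mul_smul]
    exact he2 _ (Submodule.smul_mem_smul hx Submodule.mem_top)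

/-- [S33/ALG-E] -/
theorem exists_mem_tors (θ : 𝕋 →+* k) (s : ℕ) (Y : Submodule 𝕋 W) (hY : Y ≠ ⊥)
    (hs : ∀ x ∈ (RingHom.ker θ) ^ s, ∀ w ∈ Y, x • w = 0) :
    ∃ y ∈ Y, y ≠ 0 ∧ y ∈ tors W θ := by
  classical
  have hex : ∃ j : ℕ, (RingHom.ker θ) ^ j • Y = ⊥ := by
    refine ⟨s, ?_⟩
    rw [eq_bot_iff, Submodule.smul_le]
    intro x hx w hw
    rw [hs x hx w hw]
    exact zero_mem _
  have hj := Nat.find_spec hex
  have hj0 : Nat.find hex ≠ 0 := by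
    intro h0
    rw [h0, pow_zero, Ideal.one_eq_top, Submodule.top_smul] at hj
    exact hY hj
  obtain ⟨j, hjs⟩ := Nat.exists_eq_succ_of_ne_zero hj0
  have hmin : (RingHom.ker θ) ^ j • Y ≠ ⊥ := Nat.find_min hex (by omega)
  obtain ⟨y, hy, hy0⟩ := Submodule.exists_mem_ne_zero_of_ne_bot hmin
  refine ⟨y, Submodule.smul_le_right hy, hy0, fun x hx => ?_⟩
  have h1 : x • y ∈ RingHom.ker θ • ((RingHom.ker θ) ^ j • Y) :=
    Submodule.smul_mem_smul (RingHom.mem_ker.2 hx) hy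
  rw [← Submodule.mul_smul, ← pow_succ', ← Nat.succ_eq_add_one, ← hjs, hj] at h1
  exact (Submodule.mem_bot _).1 h1

end Fermat.Agent.S33.Alg
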