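import Fermat.Agent.S33.Alg.TL
import Fermat.Agent.S33.Alg.E

/-!
# key `S33/ALG-ORD` : `IsES.ord`  (proof in the docstring)
-/

set_option autoImplicit false

namespace Fermat.Agent.S33.Alg

variable {𝕋 W G k : Type*} [CommRing 𝕋] [AddCommGroup W] [Module 𝕋 W] [Group G] [Field k]
  {act : G →* Module.End 𝕋 W} {θ : 𝕋 →+* k} {r : G → Matrix (Fin 2) (Fin 2) k}
  {z : G → 𝕋} {c : G → ℕ}

/-- in a finite monoid every element has an idempotent power -/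
theorem ordAux_exists_idem_pow {R : Type*} [Monoid R] [Finite R] (x : R) :
    ∃ n : ℕ, x ^ (n + 1) * x ^ (n + 1) = x ^ (n + 1) := by
  obtain ⟨a, b, hab, h⟩ := Finite.exists_ne_map_eq_of_infinite (fun n : ℕ => x ^ n)
  wlog hlt : a < b generalizing a b
  · exact this b a hab.symm h.symm (lt_of_le_of_ne (not_lt.mp hlt) hab.symm)
  obtain ⟨p, hp, rfl⟩ : ∃ p, 0 < p ∧ b = a + p := ⟨b - a, by omega, by omega⟩
  have h' : x ^ a = x ^ (a + p) := h
  have h1 : ∀ m, x ^ (a + m + p) = x ^ (a + m) := by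
    intro m
    rw [show a + m + p = (a + p) + m by ring, pow_add, ← h', ← pow_add]
  have h2 : ∀ j m, x ^ (a + m + j * p) = x ^ (a + m) := by
    intro j
    induction j with
    | zero => intro m; simp
    | succ j ih =>
      intro m
      rw [show a + m + (j + 1) * p = a + (m + j * p) + p by ring, h1, ← add_assoc, ih]
  obtain ⟨N, hN⟩ : ∃ N, N = (a + 1) * p := ⟨_, rfl⟩
  have hle : a + 1 ≤ N := hN ▸ Nat.le_mul_of_pos_right _ hp
  obtain ⟨m₀, hm₀⟩ : ∃ m₀, N = a + m₀ := ⟨N - a, by omega⟩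
  refine ⟨N - 1, ?_⟩
  rw [show N - 1 + 1 = N by omega, ← pow_add]
  calc x ^ (N + N) = x ^ (a + m₀ + (a + 1) * p) := by rw [← hN, ← hm₀]
    _ = x ^ (a + m₀) := h2 _ _
    _ = x ^ N := by rw [← hm₀]

/-- [S33/ALG-ORD]
NOTATION `S₀ = act σ₀ - 1`, `c₀ = c σ₀`, `U = tors W θ`, `M₀ = span_𝕋 {σ w - w | σ ∈ I, w ∈ M}` (`≤ M`, `I`-stable: `τ(σ w - w) = (τσ w - w) - (τ w - w)`;
contained in the additive closure of `hord`: `t • (σ w - w) = σ (t • w) - t • w`).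
`End W` is finite: some power `E = S₀ ^ n`, `n ≥ 1`, is idempotent.  `E` preserves every `σ₀`-stable submodule and commutes with `S₀`.
(F1) `w ∈ M ⟹ E w = S₀ (S₀^(n-1) w) ∈ M₀`.
(F2) `M₀ ⊓ ker E = ⊥`.  Else (`exists_mem_tors`) it contains `y ≠ 0`, `y ∈ U`; `S₀ ^ n y = 0`; `j` minimal with `S₀ ^ j y = 0`, `x = S₀^(j-1) y ≠ 0`, `S₀ x = 0`,
     `x ∈ M₀ ⊓ ker E ⊓ U`; `transfer_quad` + `hres` + `c_det` give the last hypothesis of `hord`; so `x = 0`.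
(F3) `y ∈ M₀ ⟹ E y = y` (`y - E y ∈ M₀ ⊓ ker E`).     (F4) `E y = y`, `S₀ y = 0 ⟹ y = 0`.
(B1) `t : 𝕋`, `E (t • w) = t • w` for all `w ∈ M`  ⟹  `t • w = 0` for all `w ∈ M`.
     Else `Y' = (t • M) ⊓ U ≠ ⊥` (`exists_mem_tors`), `G`-stable, `E = 1` on it.  `transfer_quad` (`σ = σ' = σ₀`): `S₀ ((σ₀ - c₀) y) = 0`, so `σ₀ y = c₀ y` on `Y'` (F4).
     For `g : G`, `y ∈ Y'`: `z (σ₀ g) • y = c₀ g y + c_g g⁻¹ y` (`c₀ σ₀⁻¹ y = y`), `z g • y = g y + c_g g⁻¹ y`, so `g y = (d (z (σ₀ g) - z g)) • y` (`hunit`):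
     `G` acts on `Y'` through scalars of `𝕋`, so `g g' y = g' g y`; `le_of_comm` with `U'' = Y'`, `U' = ⊥`.
(B2) `σ ∈ I`, `w ∈ M`: `σ (σ w - w) = c_σ (σ w - w)`.   `t = z σ - 1 - c_σ`: `t • w = (σ w - w) - c_σ σ⁻¹ (σ w - w) ∈ M₀`; (F3), (B1): `t • w = 0`; apply it to `σ w`.
(B3) `σ ∈ I`, `y ∈ M₀`: `σ y = c_σ y`.   `σ₀`: `y = E y = S₀ y'`, `y' ∈ M`, (B2).   General `σ`, `v = σ y ∈ M₀`: (B2) for `σ σ₀` at `y`:
     `c₀² σ v - c₀ v = c_σ c₀² v - c_σ c₀ y`; cancel `c₀` (`c (σ₀⁻¹) c₀ = 1` on `W`); (B2) for `σ` at `y`: `σ v - v = c_σ v - c_σ y`; subtract: `(c₀ - 1)(σ v - c_σ v) = 0`;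
     `hunit`: `σ v = c_σ v`; apply `σ⁻¹`.
(O1) `σ' w - w ∈ M₀`. -/
theorem IsES.ord [Finite W] (h : IsES act θ r z c) (I : Subgroup G) (σ₀ : G) (hσ₀ : σ₀ ∈ I)
    (hres : ∀ σ ∈ I, ∀ σ' ∈ I,
      (r σ - (r σ).det • (1 : Matrix (Fin 2) (Fin 2) k)) * (r σ' - 1) = 0)
    (hunit : ∃ d : ℕ, ∀ w : W, d • (c σ₀ • w - w) = w)
    (hord : ∀ x ∈ AddSubgroup.closure {y : W | ∃ σ ∈ I, ∃ w : W, y = act σ w - w},
      x ∈ tors W θ → act σ₀ x = x →
      (∀ σ ∈ I, ∀ σ' ∈ I, act σ (act σ' x - x) = c σ • (act σ' x - x)) → x = 0)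
    (M : Submodule 𝕋 W) (hM : ∀ g, ∀ w ∈ M, act g w ∈ M) (s : ℕ)
    (hs : ∀ x ∈ (RingHom.ker θ) ^ s, ∀ w ∈ M, x • w = 0) :
    ∀ σ ∈ I, ∀ σ' ∈ I, ∀ w ∈ M, act σ (act σ' w - w) = c σ • (act σ' w - w) := by
  classical
  obtain ⟨d, hd⟩ := hunit
  have hfinE : Finite (Module.End 𝕋 W) := Finite.of_injective _ DFunLike.coe_injective
  obtain ⟨S₀, hS₀⟩ : ∃ S₀ : Module.End 𝕋 W, S₀ = act σ₀ - 1 := ⟨_, rfl⟩
  have hS₀a : ∀ w, S₀ w = act σ₀ w - w := fun w => by rw [hS₀]; rfl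
  obtain ⟨n', hE⟩ := ordAux_exists_idem_pow S₀
  obtain ⟨E, hEdef⟩ : ∃ E : Module.End 𝕋 W, E = S₀ ^ (n' + 1) := ⟨_, rfl⟩
  rw [← hEdef] at hE
  have hES : E = S₀ * S₀ ^ n' := by rw [hEdef, pow_succ']
  have hES' : E = S₀ ^ n' * S₀ := by rw [hEdef, pow_succ]
  have hinv : ∀ g w, act g (act g⁻¹ w) = w := fun g w => by
    rw [← Module.End.mul_apply, ← map_mul, mul_inv_cancel, map_one]; rfl
  have hinv' : ∀ g w, act g⁻¹ (act g w) = w := fun g w => by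
    rw [← Module.End.mul_apply, ← map_mul, inv_mul_cancel, map_one]; rfl
  -- the transfer on `U`
  have hq : ∀ σ ∈ I, ∀ σ' ∈ I, ∀ u ∈ tors W θ,
      act σ (act σ' u - u) = c σ • (act σ' u - u) := by
    intro σ hσ σ' hσ' u hu
    exact h.transfer_quad σ σ' (c σ) (by rw [h.c_det]; exact hres σ hσ σ' hσ') u hu
  -- `M₀`
  obtain ⟨M₀, hM₀⟩ : ∃ M₀ : Submodule 𝕋 W,
      M₀ = Submodule.span 𝕋 {y | ∃ σ ∈ I, ∃ w ∈ M, y = act σ w - w} := ⟨_, rfl⟩
  have hgen : ∀ σ ∈ I, ∀ w ∈ M, act σ w - w ∈ M₀ := fun σ hσ w hw => by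
    rw [hM₀]; exact Submodule.subset_span ⟨σ, hσ, w, hw, rfl⟩
  have hM₀M : M₀ ≤ M := by
    rw [hM₀, Submodule.span_le]
    rintro _ ⟨σ, _, w, hw, rfl⟩
    exact M.sub_mem (hM σ w hw) hw
  have hM₀I : ∀ τ ∈ I, ∀ y ∈ M₀, act τ y ∈ M₀ := by
    intro τ hτ y hy
    rw [hM₀] at hy
    induction hy using Submodule.span_induction with
    | mem y hy =>
      obtain ⟨σ, hσ, w, hw, rfl⟩ := hy
      have : act τ (act σ w - w) = (act (τ * σ) w - w) - (act τ w - w) := by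
        rw [map_sub, map_mul, Module.End.mul_apply]; abel
      rw [this]
      exact M₀.sub_mem (hgen _ (I.mul_mem hτ hσ) w hw) (hgen τ hτ w hw)
    | zero => rw [map_zero]; exact M₀.zero_mem
    | add a b _ _ ha hb => rw [map_add]; exact M₀.add_mem ha hb
    | smul t a _ ha => rw [map_smul]; exact M₀.smul_mem t ha
  have hM₀cl : ∀ y ∈ M₀,
      y ∈ AddSubgroup.closure {y : W | ∃ σ ∈ I, ∃ w : W, y = act σ w - w} := by
    have hsm : ∀ (t : 𝕋) (y : W),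
        y ∈ AddSubgroup.closure {y : W | ∃ σ ∈ I, ∃ w : W, y = act σ w - w} →
        t • y ∈ AddSubgroup.closure {y : W | ∃ σ ∈ I, ∃ w : W, y = act σ w - w} := by
      intro t y hy
      induction hy using AddSubgroup.closure_induction with
      | mem y hy =>
        obtain ⟨σ, hσ, w, rfl⟩ := hy
        exact AddSubgroup.subset_closure ⟨σ, hσ, t • w, by rw [map_smul, smul_sub]⟩
      | zero => rw [smul_zero]; exact AddSubgroup.zero_mem _
      | add a b _ _ ha hb => rw [smul_add]; exact AddSubgroup.add_mem _ ha hb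
      | neg a _ ha => rw [smul_neg]; exact AddSubgroup.neg_mem _ ha
    intro y hy
    rw [hM₀] at hy
    induction hy using Submodule.span_induction with
    | mem y hy =>
      obtain ⟨σ, hσ, w, _, rfl⟩ := hy
      exact AddSubgroup.subset_closure ⟨σ, hσ, w, rfl⟩
    | zero => exact AddSubgroup.zero_mem _
    | add a b _ _ ha hb => exact AddSubgroup.add_mem _ ha hb
    | smul t a _ ha => exact hsm t a ha
  -- stability under powers of `S₀`
  have hstab : ∀ (P : Submodule 𝕋 W), (∀ y ∈ P, act σ₀ y ∈ P) → ∀ j, ∀ y ∈ P, (S₀ ^ j) y ∈ P := by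
    intro P hP j
    induction j with
    | zero => intro y hy; simpa using hy
    | succ j ih =>
      intro y hy
      rw [pow_succ', Module.End.mul_apply, hS₀a]
      exact P.sub_mem (hP _ (ih y hy)) (ih y hy)
  have F1 : ∀ w ∈ M, E w ∈ M₀ := by
    intro w hw
    rw [hES, Module.End.mul_apply, hS₀a]
    exact hgen σ₀ hσ₀ _ (hstab M (hM σ₀) n' w hw)
  have F2 : ∀ y ∈ M₀, E y = 0 → y = 0 := by
    by_contra hcon
    push Not at hcon
    obtain ⟨y₀, hy₀M, hy₀E, hy₀⟩ := hcon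
    have hY : M₀ ⊓ LinearMap.ker E ≠ ⊥ := fun hb =>
      hy₀ ((Submodule.mem_bot 𝕋).mp (hb ▸ (⟨hy₀M, hy₀E⟩ : y₀ ∈ M₀ ⊓ LinearMap.ker E)))
    obtain ⟨y, hyY, hy0, hyU⟩ := exists_mem_tors θ s _ hY
      (fun x hx w hw => hs x hx w (hM₀M hw.1))
    have hex : ∃ j, (S₀ ^ j) y = 0 := ⟨n' + 1, by rw [← hEdef]; exact hyY.2⟩
    have hj : (S₀ ^ (Nat.find hex)) y = 0 := Nat.find_spec hex
    have hj0 : Nat.find hex ≠ 0 := by
      intro h0
      rw [h0, pow_zero] at hj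
      exact hy0 hj
    obtain ⟨j', hj'⟩ : ∃ j', Nat.find hex = j' + 1 := ⟨Nat.find hex - 1, by omega⟩
    have hx0 : (S₀ ^ j') y ≠ 0 := Nat.find_min hex (by omega : j' < Nat.find hex)
    apply hx0
    have hxM₀ := hstab M₀ (hM₀I σ₀ hσ₀) j' y hyY.1
    have hxU : (S₀ ^ j') y ∈ tors W θ := map_mem_tors _ hyU
    apply hord _ (hM₀cl _ hxM₀) hxU
    · have : S₀ ((S₀ ^ j') y) = 0 := by
        rw [← Module.End.mul_apply, ← pow_succ', ← hj']; exact hj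
      rw [hS₀a] at this
      exact sub_eq_zero.mp this
    · intro σ hσ σ' hσ'
      exact hq σ hσ σ' hσ' _ hxU
  have hEE : ∀ w, E (E w) = E w := fun w => by rw [← Module.End.mul_apply, hE]
  have F3 : ∀ y ∈ M₀, E y = y := by
    intro y hy
    have := F2 (y - E y) (M₀.sub_mem hy (F1 y (hM₀M hy))) (by rw [map_sub, hEE, sub_self])
    exact (sub_eq_zero.mp this).symm
  have F4 : ∀ y, E y = y → act σ₀ y = y → y = 0 := by
    intro y h1 h2
    rw [← h1, hES', Module.End.mul_apply, hS₀a, h2, sub_self, map_zero]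
  have B1 : ∀ t : 𝕋, (∀ w ∈ M, E (t • w) = t • w) → ∀ w ∈ M, t • w = 0 := by
    intro t ht
    by_contra hcon
    push Not at hcon
    obtain ⟨w₀, hw₀, hw₀t⟩ := hcon
    obtain ⟨tM, htMdef⟩ : ∃ tM : Submodule 𝕋 W, tM = M.map (LinearMap.lsmul 𝕋 W t) := ⟨_, rfl⟩
    have htM : ∀ y, y ∈ tM ↔ ∃ w ∈ M, t • w = y := fun y => by
      rw [htMdef]; exact Submodule.mem_map
    have htM0 : tM ≠ ⊥ := fun hb =>
      hw₀t ((Submodule.mem_bot 𝕋).mp (hb ▸ (htM _).mpr ⟨w₀, hw₀, rfl⟩))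
    obtain ⟨y₁, hy₁, hy₁0, hy₁U⟩ := exists_mem_tors θ s tM htM0 (fun x hx w hw => by
      obtain ⟨w', hw', rfl⟩ := (htM w).mp hw
      rw [smul_comm, hs x hx w' hw', smul_zero])
    have hY'G : ∀ g, ∀ y ∈ tM ⊓ tors W θ, act g y ∈ tM ⊓ tors W θ := by
      rintro g y ⟨hy1, hy2⟩
      refine ⟨?_, map_mem_tors _ hy2⟩
      obtain ⟨w, hw, rfl⟩ := (htM y).mp hy1
      exact (htM _).mpr ⟨act g w, hM g w hw, by rw [map_smul]⟩
    have hY'E : ∀ y ∈ tM ⊓ tors W θ, E y = y := by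
      rintro y ⟨hy1, -⟩
      obtain ⟨w, hw, rfl⟩ := (htM y).mp hy1
      exact ht w hw
    have hσ₀Y : ∀ y ∈ tM ⊓ tors W θ, act σ₀ y = c σ₀ • y := by
      intro y hy
      have hv : act σ₀ y - c σ₀ • y ∈ tM ⊓ tors W θ :=
        Submodule.sub_mem _ (hY'G σ₀ y hy) (Submodule.smul_of_tower_mem _ _ hy)
      have := F4 _ (hY'E _ hv) (by
        have h1 := hq σ₀ hσ₀ σ₀ hσ₀ y hy.2
        rw [map_sub, smul_sub] at h1
        rw [map_sub, map_nsmul]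
        have h2 : act σ₀ (act σ₀ y) = act σ₀ y + (c σ₀ • act σ₀ y - c σ₀ • y) := by
          rw [← h1]; abel
        rw [h2]; abel)
      exact sub_eq_zero.mp this
    have hscal : ∀ g, ∀ y ∈ tM ⊓ tors W θ, act g y = (d • (z (σ₀ * g) - z g)) • y := by
      intro g y hy
      have e0 : c σ₀ • act σ₀⁻¹ y = y := by
        rw [← hσ₀Y _ (hY'G σ₀⁻¹ y hy), hinv]
      have e1 : z (σ₀ * g) • y = c σ₀ • act g y + c g • act g⁻¹ y := by
        rw [h.hz, map_mul, Module.End.mul_apply, hσ₀Y _ (hY'G g y hy), h.c_mul, mul_inv_rev,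
          map_mul, Module.End.mul_apply]
        congr 1
        rw [smul_comm, ← map_nsmul, e0]
      rw [smul_assoc, sub_smul, e1, h.hz]
      have : c σ₀ • act g y + c g • act g⁻¹ y - (act g y + c g • act g⁻¹ y) =
          c σ₀ • act g y - act g y := by abel
      rw [this, hd]
    have hle : tM ⊓ tors W θ ≤ ⊥ := by
      apply h.le_of_comm ⊥ _ inf_le_right
      · intro g u hu
        rw [(Submodule.mem_bot 𝕋).mp hu, map_zero]
        exact Submodule.zero_mem _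
      · exact hY'G
      · intro g g' u hu
        rw [hscal g _ (hY'G g' u hu), hscal g' u hu, hscal g' _ (hY'G g u hu), hscal g u hu,
          smul_comm, sub_self]
        exact Submodule.zero_mem _
    exact hy₁0 ((Submodule.mem_bot 𝕋).mp (hle ⟨hy₁, hy₁U⟩))
  have B2 : ∀ σ ∈ I, ∀ w ∈ M, act σ (act σ w - w) = c σ • (act σ w - w) := by
    intro σ hσ
    have key : ∀ w : W, (z σ - 1 - (c σ : 𝕋)) • w =
        (act σ w - w) - c σ • act σ⁻¹ (act σ w - w) := by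
      intro w
      rw [sub_smul, sub_smul, h.hz, one_smul, Nat.cast_smul_eq_nsmul, map_sub, hinv', smul_sub]
      abel
    have hmem : ∀ w ∈ M, (z σ - 1 - (c σ : 𝕋)) • w ∈ M₀ := by
      intro w hw
      rw [key w]
      exact M₀.sub_mem (hgen σ hσ w hw)
        (M₀.smul_of_tower_mem _ (hM₀I σ⁻¹ (I.inv_mem hσ) _ (hgen σ hσ w hw)))
    have hzero := B1 _ (fun w hw => F3 _ (hmem w hw))
    intro w hw
    have h1 := hzero (act σ w) (hM σ w hw)
    rw [key] at h1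
    have e : act σ (act σ w) - act σ w = act σ (act σ w - w) := (map_sub _ _ _).symm
    rw [e, hinv'] at h1
    exact sub_eq_zero.mp h1
  have B3₀ : ∀ y ∈ M₀, act σ₀ y = c σ₀ • y := by
    intro y hy
    have h1 : S₀ ((S₀ ^ n') y) = y := by
      rw [← Module.End.mul_apply, ← hES]; exact F3 y hy
    have h2 := B2 σ₀ hσ₀ _ (hstab M (hM σ₀) n' y (hM₀M hy))
    rw [← hS₀a, h1] at h2
    exact h2
  have hc₀inv : ∀ w : W, c σ₀⁻¹ • c σ₀ • w = w := fun w => by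
    rw [← h.c_mul, inv_mul_cancel, h.c_one]
  have B3 : ∀ σ ∈ I, ∀ y ∈ M₀, act σ y = c σ • y := by
    intro σ hσ y hy
    obtain ⟨v, hv⟩ : ∃ v, v = act σ y := ⟨_, rfl⟩
    have hvM₀ : v ∈ M₀ := hv ▸ hM₀I σ hσ y hy
    have h1 := B2 (σ * σ₀) (I.mul_mem hσ hσ₀) y (hM₀M hy)
    have e1 : act (σ * σ₀) y = c σ₀ • v := by
      rw [map_mul, Module.End.mul_apply, B3₀ y hy, map_nsmul, hv]
    rw [e1] at h1
    have e2 : act (σ * σ₀) (c σ₀ • v - y) = c σ₀ • (c σ₀ • act σ v - v) := by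
      rw [map_mul, Module.End.mul_apply, map_sub, map_nsmul, B3₀ v hvM₀, B3₀ y hy, map_sub,
        map_nsmul, map_nsmul, map_nsmul, smul_sub, ← hv]
    have e3 : c (σ * σ₀) • (c σ₀ • v - y) = c σ₀ • (c σ • (c σ₀ • v - y)) := by
      rw [h.c_mul, smul_comm]
    rw [e2, e3] at h1
    have h2 : c σ₀ • act σ v - v = c σ • (c σ₀ • v - y) := by
      have := congrArg (fun w => c σ₀⁻¹ • w) h1
      simpa only [hc₀inv] using this
    have h3 := B2 σ hσ y (hM₀M hy)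
    rw [← hv, map_sub, ← hv] at h3
    have h4 : c σ₀ • (act σ v - c σ • v) - (act σ v - c σ • v) = 0 := by
      have : c σ₀ • (act σ v - c σ • v) - (act σ v - c σ • v) =
          (c σ₀ • act σ v - v) - (act σ v - v) -
            (c σ • (c σ₀ • v - y) - c σ • (v - y)) := by
        simp only [smul_sub]
        rw [smul_comm (c σ₀) (c σ) v]
        abel
      rw [this, h2, h3, sub_self]
    have h5 : act σ v - c σ • v = 0 := by
      rw [← hd (act σ v - c σ • v), h4, smul_zero]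
    have h6 : act σ v = c σ • v := sub_eq_zero.mp h5
    have h7 := congrArg (act σ⁻¹) h6
    rw [hinv', map_nsmul, hv, hinv'] at h7
    exact h7
  intro σ hσ σ' hσ' w hw
  exact B3 σ hσ _ (hgen σ' hσ' w hw)

end Fermat.Agent.S33.Alg
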