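import Fermat.Agent.S31.Main
import Fermat.Prelude.Def_GaloisRep_LocalConditions
import Fermat.Prelude.Def_FLTPrelim_Ramification

/-!
# S33/ALG-RES : the residual relation `(ρ̄σ - det ρ̄σ)(ρ̄σ' - 1) = 0` on inertia      key `S33/ALG-RES`

PROOF of `res_ord`.  `hres P hP` gives a basis `b` with `L = k ∙ b 0`, `L` stable under `D_P ⊇ I_P`, `ρσ v - v ∈ L` for `σ ∈ I_P`.
For `σ ∈ I_P`: `ρσ (b 0) = α b 0`, `ρσ (b 1) = b 1 + β b 0`, so `toMatrix b b (ρσ) = !![α, β; 0, 1]`, `det (ρσ) = α`, i.e. `ρσ = det(ρσ)` on `L`.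
So `(ρσ - det ρσ) ((ρσ' - 1) v) = 0` for all `v`: an identity of linear maps; transport it with `LinearMap.toMatrix b' b'` (an algebra
isomorphism; `LinearMap.det_toMatrix`), `b'` = the basis of `hr`.
`inertia_le`, `inertia_normal`: `inertiaSubgroupIn = (A.inertiaSubgroup K).map (A.decompositionSubgroup K).subtype`, and
`A.inertiaSubgroup K` is a kernel (`MonoidHom.normal_ker`).
-/

set_option autoImplicit false

namespace Fermat.Agent.S33.Alg

open Fermat.Agent.S29 (Qb GQ)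
open Fermat.Agent.S53 (Gal M2 HasMatrix HasMatrixRes)

theorem inertia_le (P : ValuationSubring Qb) : P.inertiaSubgroupIn ℚ ≤ P.decompositionSubgroup ℚ := by
  rintro _ ⟨x, -, rfl⟩
  exact x.2

theorem resAux_normal (P : ValuationSubring Qb) : (P.inertiaSubgroup ℚ).Normal := by
  unfold ValuationSubring.inertiaSubgroup
  exact MonoidHom.normal_ker _

theorem inertia_normal (P : ValuationSubring Qb) (d : GQ) (hd : d ∈ P.decompositionSubgroup ℚ)
    (σ : GQ) (hσ : σ ∈ P.inertiaSubgroupIn ℚ) : d * σ * d⁻¹ ∈ P.inertiaSubgroupIn ℚ := by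
  obtain ⟨x, hx, rfl⟩ := hσ
  have h1 := (resAux_normal P).conj_mem x hx ⟨d, hd⟩
  exact Subgroup.mem_map.2 ⟨_, h1, by simp⟩

theorem resAux_lin {k V : Type*} [Field k] [AddCommGroup V] [Module k V]
    (b : Module.Basis (Fin 2) k V) (f g : Module.End k V) (hf0 : f (b 0) ∈ k ∙ b 0)
    (hf : ∀ v, f v - v ∈ k ∙ b 0) (hg : ∀ v, g v - v ∈ k ∙ b 0) :
    (f - LinearMap.det f • (1 : Module.End k V)) * (g - 1) = 0 := by
  obtain ⟨α, hα⟩ := Submodule.mem_span_singleton.1 hf0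
  obtain ⟨β, hβ⟩ := Submodule.mem_span_singleton.1 (hf (b 1))
  have h1 : f (b 1) = b 1 + β • b 0 := by rw [hβ]; abel
  have hdet : LinearMap.det f = α := by
    rw [← LinearMap.det_toMatrix b f, Matrix.det_fin_two]
    simp [LinearMap.toMatrix_apply, ← hα, h1]
  ext v
  obtain ⟨γ, hγ⟩ := Submodule.mem_span_singleton.1 (hg v)
  rw [Module.End.mul_apply, LinearMap.sub_apply g, Module.End.one_apply, ← hγ, map_smul,
    LinearMap.sub_apply, LinearMap.smul_apply, Module.End.one_apply, hdet, ← hα, sub_self,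
    smul_zero, LinearMap.zero_apply]

theorem res_ord {k : Type} [Field k] (ρ : ResidualGaloisRep k) (r : Gal → M2 k) (hr : HasMatrixRes ρ r)
    (p : ℕ) (hres : (GaloisRepAdic.ofResidualGaloisRep ρ).IsOrdinaryAt p)
    (P : ValuationSubring Qb) (hP : P.LiesOverPrime p)
    (σ : GQ) (hσ : σ ∈ P.inertiaSubgroupIn ℚ) (σ' : GQ) (hσ' : σ' ∈ P.inertiaSubgroupIn ℚ) :
    (r σ - (r σ).det • (1 : M2 k)) * (r σ' - 1) = 0 := by
  obtain ⟨L, ⟨b, rfl⟩, hD, hI⟩ := hres P hP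
  obtain ⟨b', hb'⟩ := hr
  have h1 : (ρ.ρ σ - LinearMap.det (ρ.ρ σ) • (1 : Module.End k ρ.V)) * (ρ.ρ σ' - 1) = 0 :=
    resAux_lin b (ρ.ρ σ) (ρ.ρ σ')
      (hD σ (inertia_le P hσ) _ (Submodule.mem_span_singleton_self _)) (hI σ hσ) (hI σ' hσ')
  have h2 := congrArg (LinearMap.toMatrix b' b') h1
  rw [LinearMap.toMatrix_mul, map_sub, map_sub, map_smul, LinearMap.toMatrix_one, map_zero,
    hb', hb', ← LinearMap.det_toMatrix b', hb'] at h2
  exact h2

end Fermat.Agent.S33.Alg
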