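import Fermat.Agent.S33.Alg.Core

/-!
# S33/ALG-TR : the element `Z = z_{σσ'g} - z_{σg} - c_σ z_{σ'g} + c_σ z_g` kills `M`   (helper14)
-/

set_option autoImplicit false

namespace Fermat.Agent.S33.Alg

variable {𝕋 W G k : Type*} [CommRing 𝕋] [AddCommGroup W] [Module 𝕋 W] [Group G] [Field k]
  {act : G →* Module.End 𝕋 W} {θ : 𝕋 →+* k} {r : G → Matrix (Fin 2) (Fin 2) k}
  {z : G → 𝕋} {c : G → ℕ}

theorem act_mul_apply (g h : G) (w : W) : act (g * h) w = act g (act h w) := by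
  rw [map_mul]; rfl

theorem act_inv_apply (g : G) (w : W) : act g⁻¹ (act g w) = w := by
  rw [← act_mul_apply, inv_mul_cancel, map_one]; rfl

theorem act_apply_inv (g : G) (w : W) : act g (act g⁻¹ w) = w := by
  rw [← act_mul_apply, mul_inv_cancel, map_one]; rfl

theorem IsES.tr_zero (h : IsES act θ r z c) (I : Subgroup G) (M : Submodule 𝕋 W)
    (hM : ∀ g, ∀ w ∈ M, act g w ∈ M)
    (hO1 : ∀ σ ∈ I, ∀ σ' ∈ I, ∀ w ∈ M, act σ (act σ' w - w) = c σ • (act σ' w - w))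
    (σ : G) (hσ : σ ∈ I) (σ' : G) (hσ' : σ' ∈ I) (g : G) (v : W) (hv : v ∈ M) :
    (z (σ * σ' * g) - z (σ * g) - c σ • z (σ' * g) + c σ • z g) • v = 0 := by
  have e1 := hO1 σ hσ σ' hσ' (act g v) (hM g v hv)
  have e2 := hO1 σ' hσ' σ hσ (act σ⁻¹ v) (hM _ v hv)
  rw [act_apply_inv] at e2
  -- `y = c_σ' σ'⁻¹ y`
  have e3 : v - act σ⁻¹ v = c σ' • act σ'⁻¹ (v - act σ⁻¹ v) := by
    have := congrArg (act σ'⁻¹) e2
    rw [act_inv_apply, map_nsmul] at this
    exact this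
  have e4 := congrArg (fun x => c σ • c g • act g⁻¹ x) e3
  simp only [add_smul, sub_smul, smul_assoc, h.hz, mul_inv_rev, act_mul_apply, h.c_mul, smul_add,
    smul_sub, map_sub, map_nsmul] at e1 e4 ⊢
  linear_combination (norm := module) e1 + e4

end Fermat.Agent.S33.Alg
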