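import Fermat.Agent.S34.Glue

/-!
# S33/ALG-Z : the elements `z_g ∈ 𝕋`, `c_g ∈ ℕ`      key `S33/ALG-Z`

`exists_zdata` = the `main` claim inside `S31.trace_inertia_mul_sub_mem` (trace + action on `W`), the determinant part of
`S34.trace_det_inertia_sub_mem`, with `χ` from `S31.CycloAux.exists_cyclo_nat (p ^ m)` (which also gives the action on `μ_{p^m}`).
For `g`: Frobenius density (`S31.exists_frob S L hLfin g`, `L = Ln ⊔ L' ⊔ Lχ`) gives `ℓ ∉ S`, `τ`, `b` with `g = τ ^ b` on `L`;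
`z g = dk (T_ℓ) ℓ b`, `c g = ℓ ^ b`; `(c g : ZMod (p ^ m)) = χ g`.   Then use `choose`.
 * multiplicativity: `χ` is a hom.     * `g μ = μ ^ (χ g).val = μ ^ c g` because `μ ^ (p ^ m) = 1` and `c g ≡ (χ g).val mod p ^ m`.
 * determinant: `det ρ(τ ^ b) = ℓ ^ b` (`S34.det_of_charpoly`), `S34.det_sub_mem`.
`natCast_eq_of_roots`: take a primitive `p`-th root of unity `ζ` (`HasEnoughRootsOfUnity.exists_primitiveRoot Qb p`): `ζ ^ c = ζ ^ c'`.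
-/

set_option autoImplicit false

namespace Fermat.Agent.S33.Alg

open Fermat.Agent.S29 (Qb GQ)
open Fermat.Agent.S31

variable {p : ℕ} {N : ℕ} [NeZero N] {S : Finset ℕ}
  {𝒪 : Type} [CommRing 𝒪] [IsDomain 𝒪] [IsDiscreteValuationRing 𝒪]
  [IsAdicComplete (IsLocalRing.maximalIdeal 𝒪) 𝒪]
  {θ : CuspForm.heckeAlgebra N 2 (↑S : Set ℕ) →+* IsLocalRing.ResidueField 𝒪}
  {T : Type} [CommRing T] [IsLocalRing T] [IsNoetherianRing T]
  [IsAdicComplete (IsLocalRing.maximalIdeal T) T] [Algebra 𝒪 T] [IsLocalHom (algebraMap 𝒪 T)]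
  [Module.Finite 𝒪 T] [Module.Free 𝒪 T]

theorem exists_zdata (hp : p.Prime) (hpS : p ∈ S)
    (hNS : ∀ q : ℕ, q.Prime → q ∣ N → q ∈ S)
    (H : CuspForm.HeckeGaloisRepDatum N (↑S : Set ℕ) 𝒪 θ T) (n m : ℕ)
    {W : Type} [AddCommGroup W] (act : GQ →* AddMonoid.End W)
    (a : CuspForm.heckeAlgebra N 2 (↑S : Set ℕ) →+* AddMonoid.End W)
    (hlev : ∃ L : IntermediateField ℚ Qb, FiniteDimensional ℚ L ∧
      ∀ σ : GQ, (∀ x ∈ L, σ x = x) → act σ = 1)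
    (ES1 : ∀ (ℓ : ℕ) (hℓ : ℓ.Prime) (hℓN : ¬ ℓ ∣ N) (hℓS : ℓ ∉ (↑S : Set ℕ)) (A : ValuationSubring Qb),
      A.LiesOverPrime ℓ → ∀ τ : GQ, A.IsFrobeniusAt τ ℓ →
        act τ * act τ - a (CuspForm.heckeAlgebra.T hℓ hℓN hℓS) * act τ
          + (ℓ : AddMonoid.End W) = 0) :
    ∃ (z : GQ → CuspForm.heckeAlgebra N 2 (↑S : Set ℕ)) (c : GQ → ℕ),
      (∀ g, H.ρ.trace g - H.π (z g) ∈ IsLocalRing.maximalIdeal T ^ n) ∧
      (∀ g, a (z g) = act g + (c g : AddMonoid.End W) * act g⁻¹) ∧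
      (∀ g, LinearMap.det (H.ρ.ρ g) - (c g : T) ∈ IsLocalRing.maximalIdeal T ^ n) ∧
      (∀ g h, ((c (g * h) : ℕ) : ZMod (p ^ m)) = (c g : ZMod (p ^ m)) * (c h : ZMod (p ^ m))) ∧
      ((c 1 : ℕ) : ZMod (p ^ m)) = 1 ∧
      (∀ (g : GQ) (μ : Qb), μ ^ (p ^ m) = 1 → g μ = μ ^ (c g)) := by
  have hne : NeZero (p ^ m) := ⟨pow_ne_zero _ hp.ne_zero⟩
  obtain ⟨L', hL'fin, hL'⟩ := hlev
  obtain ⟨Ln, hLnfin, hLn⟩ := H.ρ.isAdicContinuous n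
  obtain ⟨χ, ⟨Lχ, hLχfin, hLχ⟩, hχfrob, -, hχμ⟩ := CycloAux.exists_cyclo_nat (p ^ m)
  set L : IntermediateField ℚ Qb := Ln ⊔ L' ⊔ Lχ with hLdef
  have hLfin : FiniteDimensional ℚ L := by
    have : FiniteDimensional ℚ (Ln ⊔ L' : IntermediateField ℚ Qb) :=
      IntermediateField.finiteDimensional_sup Ln L'
    exact IntermediateField.finiteDimensional_sup (Ln ⊔ L') Lχ
  have hLn_le : Ln ≤ L := le_sup_left.trans le_sup_left
  have hL'_le : L' ≤ L := le_sup_right.trans le_sup_left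
  have hLχ_le : Lχ ≤ L := le_sup_right
  have main : ∀ h : GQ, ∃ (z : CuspForm.heckeAlgebra N 2 (↑S : Set ℕ)) (c : ℕ),
      H.ρ.trace h - H.π z ∈ IsLocalRing.maximalIdeal T ^ n ∧
      a z = act h + (c : AddMonoid.End W) * act h⁻¹ ∧
      LinearMap.det (H.ρ.ρ h) - (c : T) ∈ IsLocalRing.maximalIdeal T ^ n ∧
      ((χ h : (ZMod (p ^ m))ˣ) : ZMod (p ^ m)) = (c : ZMod (p ^ m)) := by
    intro h
    obtain ⟨ℓ, A, τ, b, hℓ, hℓS, hA, hτ, hb⟩ := exists_frob S L hLfin h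
    have hℓN : ¬ ℓ ∣ N := fun hd => hℓS (hNS ℓ hℓ hd)
    have hℓS' : ℓ ∉ (↑S : Set ℕ) := fun hh => hℓS (Finset.mem_coe.mp hh)
    have hℓp : ℓ ≠ p := fun hh => hℓS (hh ▸ hpS)
    have hℓpm : ¬ ℓ ∣ p ^ m := fun hd =>
      hℓp ((Nat.prime_dvd_prime_iff_eq hℓ hp).mp (hℓ.dvd_of_dvd_pow hd))
    refine ⟨dk (CuspForm.heckeAlgebra.T hℓ hℓN hℓS') (ℓ : _) b, ℓ ^ b, ?_, ?_, ?_, ?_⟩
    · rw [← trace_frob_pow H hℓ hℓN hℓS' A hA τ hτ b]
      exact trace_sub_mem H.ρ n Ln hLn h (τ ^ b) (fun x hx => hb x (hLn_le hx))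
    · have e1 : act h = act τ ^ b := by
        rw [← map_pow]
        exact eq_of_level act L' hL' h (τ ^ b) (fun x hx => hb x (hL'_le hx))
      have e2 : act h⁻¹ = act τ⁻¹ ^ b := by
        have e3 : act h * act h⁻¹ = 1 := by rw [← map_mul, mul_inv_cancel, map_one]
        have e4 : act τ⁻¹ ^ b * act τ ^ b = 1 := by
          rw [← map_pow, ← map_pow, ← map_mul, inv_pow, inv_mul_cancel, map_one]
        calc act h⁻¹ = (act τ⁻¹ ^ b * act τ ^ b) * act h⁻¹ := by rw [e4, one_mul]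
          _ = act τ⁻¹ ^ b := by rw [← e1, mul_assoc, e3, mul_one]
      rw [e1, e2]
      exact map_dk_of_quad a _ ℓ (act τ) (act τ⁻¹)
        (by rw [← map_mul, mul_inv_cancel, map_one]) (by rw [← map_mul, inv_mul_cancel, map_one])
        (ES1 ℓ hℓ hℓN hℓS' A hA τ hτ) b
    · have h1 := S34.det_sub_mem H.ρ n Ln hLn h (τ ^ b) (fun x hx => hb x (hLn_le hx))
      have h2 : LinearMap.det (H.ρ.ρ (τ ^ b)) = ((ℓ ^ b : ℕ) : T) := by
        rw [map_pow, map_pow, S34.det_of_charpoly H.ρ.finrank_eq _ _ _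
          (H.charpoly_frob ℓ hℓ hℓN hℓS' A hA τ hτ), Nat.cast_pow]
      rwa [h2] at h1
    · have e1 : χ h = χ τ ^ b := by
        rw [← map_pow]
        exact eq_of_level χ Lχ hLχ h (τ ^ b) (fun x hx => hb x (hLχ_le hx))
      rw [e1, Units.val_pow_eq_pow_val, hχfrob ℓ hℓ hℓpm A hA τ hτ, Nat.cast_pow]
  choose z c h1 h2 h3 h4 using main
  refine ⟨z, c, h1, h2, h3, fun g h => ?_, ?_, fun g μ hμ => ?_⟩
  · rw [← h4, ← h4, ← h4, map_mul, Units.val_mul]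
  · rw [← h4, map_one, Units.val_one]
  · rw [hχμ g μ hμ, h4]
    have h5 : ((c g : ZMod (p ^ m))).val ≡ c g [MOD p ^ m] := by
      rw [ZMod.val_natCast]
      exact Nat.mod_modEq _ _
    exact pow_eq_pow_of_modEq h5 hμ

/-- two exponents for the action on `μ_p` agree modulo `p` -/
theorem natCast_eq_of_roots (hp : p.Prime) (g : GQ) (c c' : ℕ)
    (h : ∀ μ : Qb, μ ^ p = 1 → g μ = μ ^ c) (h' : ∀ μ : Qb, μ ^ p = 1 → g μ = μ ^ c') :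
    (c : ZMod p) = (c' : ZMod p) := by
  have : NeZero p := ⟨hp.ne_zero⟩
  obtain ⟨ζ, hζ⟩ := HasEnoughRootsOfUnity.exists_primitiveRoot Qb p
  have h1 : ζ ^ c = ζ ^ c' := (h ζ hζ.pow_eq_one).symm.trans (h' ζ hζ.pow_eq_one)
  have hfo : IsOfFinOrder ζ := isOfFinOrder_iff_pow_eq_one.mpr ⟨p, hp.pos, hζ.pow_eq_one⟩
  have h2 := hfo.pow_eq_pow_iff_modEq.mp h1
  rw [← hζ.eq_orderOf] at h2
  exact (ZMod.natCast_eq_natCast_iff _ _ _).mpr h2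

/-- an element which moves a `p`-th root of unity has exponent `≠ 1` modulo `p` -/
theorem natCast_ne_one_of_moves (g : GQ) (c : ℕ)
    (h : ∀ μ : Qb, μ ^ p = 1 → g μ = μ ^ c) (hg : ∃ ζ : Qb, ζ ^ p = 1 ∧ g ζ ≠ ζ) :
    (c : ZMod p) ≠ 1 := by
  intro hc
  obtain ⟨ζ, hζ, hne⟩ := hg
  apply hne
  rw [h ζ hζ]
  have h1 : c ≡ 1 [MOD p] := (ZMod.natCast_eq_natCast_iff _ _ _).mp (by rw [hc, Nat.cast_one])
  rw [pow_eq_pow_of_modEq h1 hζ, pow_one]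

end Fermat.Agent.S33.Alg
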