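import Fermat.Agent.S33.Defs
import Fermat.Agent.S34.Glue
import Fermat.Agent.S33.Alg.Ord
import Fermat.Agent.S33.Alg.Tr
import Fermat.Agent.S33.Alg.Line
import Fermat.Agent.S33.Alg.Res
import Fermat.Agent.S33.Alg.ZData

/-!
# S33/ALG : ordinarity from the interface `ESInterfaceO` (pure algebra)          key `S33/ALG` (sub-owner helper14; assembled from `Alg/{Core,Comm,TL,E,Ord,Tr,Line,Res,ZData}.lean`)

Notation: `𝕋 = heckeAlgebra N 2 S`, `G = G_ℚ`, `P ∣ p`, `I = I_P`, `σ₀ ∈ I` moving `ζ_p`; fix `n ≥ 1` and the data `(m, W, act, a)` of the interface.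
`c_g ∈ ℕ` = exponent of `g` on `μ_{p^m}` (`S31.exists_cyclo_pow`).  `k = ResidueField 𝒪`, `ρ̄ = H.ρ.residual`.

(Z) [copy of `main` in `S31.trace_inertia_mul_sub_mem`]  for all `g ∈ G` there are `z_g ∈ 𝕋`, `c_g` with `a z_g = g + c_g g⁻¹` on `W`,
    `tr ρ(g) - π(z_g) ∈ 𝔪_T^n`; hence `θ(z_g) = tr ρ̄(g)` (`H.π` reduces to `θ`), `det ρ(g) ≡ c_g mod 𝔪_T^n` (`S34.trace_det_inertia_sub_mem`).
    For `X = ∑ n_i g_i ∈ ℤ[G]` put `X* = ∑ n_i c_{g_i} g_i⁻¹` (anti-involution on `End W`-level: work with finite sums / `MonoidAlgebra ℤ G`);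
    `X + X* = a(z_X)`, `θ(z_X) = tr ρ̄(X)`.
(e) `𝔪 = ker θ`.  `W` finite ⟹ there is `e ∈ 𝕋` with `θ(e) = 1` and every `x ∈ 𝔪` nilpotent on `M := a(e) W`, `a(e)² = a(e)`
    (the image `a(𝕋)` is a finite commutative ring; or: `𝔪` is f.g. (`𝕋` noetherian, S22) by `x_1..x_r`, `a(x_j)^s` has stable image/kernel for `s ≫ 0`,
    some power `a(x_j)^{s t}` is idempotent, `e = ∏ (1 - x_j^{s t})`).  `W[𝔪] := {w | ∀ x ∈ 𝔪, a x w = 0}`; every nonzero `𝕋`-stable subgroup of `M` meets `W[𝔪]`.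
(TL) transfer lemma: `X ∈ ℤ[G]`, `ρ̄(X) = 0 ⟹ X = 0` on `W[𝔪]`.
    Proof: for `y ∈ ℤ[G]`: `Xy + y*X* = a(z)`, `θ(z) = tr(ρ̄(X) ρ̄(y)) = 0`, so `Xy = - y*X*` on `W[𝔪]`; `y = 1`: `X = -X*`; so `Xy = y*X`.
    Then `X(yz) = (yz)*X = z*y*X = z*(Xy) = (z*X)y = Xzy`: `X` kills `C := ∑ (yz - zy) W[𝔪]` (a `G`- and `𝕋`-stable subgroup).
    If `W[𝔪]/C ≠ 0`: `G` acts on it through an abelian quotient, so `θ(z_{ghw} - z_{hgw})` acts as `0` on a nonzero `𝕋/𝔪`-vector space: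
    `tr((ρ̄g ρ̄h - ρ̄h ρ̄g) ρ̄w) = 0` for all `w`, so `ρ̄g ρ̄h = ρ̄h ρ̄g` (`S31.trace_lemma_field`), contradiction with `S31.span_eq_top_field`.
(O̅) `hres` ⟹ `(ρ̄σ - c_σ)(ρ̄σ' - 1) = 0` for `σ, σ' ∈ I` (`ρ̄σ` is `1` on `V̄/L̄`, so it is `det ρ̄σ = c_σ` on the line `L̄`).
(Fit) `S₀ = act σ₀ - 1` on the finite group `M`: `M = M₁ ⊕ M₂`, `S₀` nilpotent on `M₁`, bijective on `M₂`.  `M₀ := ∑_{σ∈I} (σ-1) M = M ∩ augI` (apply `a(e)`).
    `M₂ ⊆ M₀`.  `M₀ ∩ M₁ = 0`: it is stable under `𝕋` and `σ₀`; if `≠ 0` there is `0 ≠ x ∈ (M₀ ∩ M₁)[𝔪]` with `S₀ x = 0`; `p x = 0` (`p ∈ 𝔪`);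
    (TL)+(O̅) give the hypothesis of (P3); so `x = 0`.  Hence `M₀ = M₂`.
(B1) `t ∈ 𝕋`, `a(t) M ⊆ M₂ ⟹ a(t) M = 0`.  Else `Y = (a(t)M)[𝔪] ≠ 0` is `G`-stable, `(σ₀-1)(σ₀-c₀) = 0` on `W[𝔪]` (TL), `σ₀ - 1` injective on `M₂`, so `σ₀ = c₀` on `Y`;
    `a(z_{σ₀h}) - a(z_h) = (c₀ - 1) h` on `Y`, so every `h ∈ G` acts on `Y` by a scalar of `𝕋/𝔪`, `tr ρ̄(ghw) = tr ρ̄(hgw)`, contradiction as in (TL).
(B2) `σ ∈ I`: `a(z_σ) = 1 + c_σ` on `M` (true on `M/M₂` because `(σ-1)M ⊆ M₂`; apply (B1) to `t = (z_σ - 1 - c_σ)`), i.e. `(σ-1)(σ-c_σ) = 0` on `M`.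
(B3) `σ = c_σ` on `M₂`: `σ₀ = c₀` on `M₂`; (B2) for `σσ₀`: `(c₀σ - 1)(σ - c_σ) = 0` on `M₂`; subtract (B2) for `σ`: `(c₀-1) σ (σ - c_σ) = 0`.
(O1) hence `a(e) (σ - c_σ)(σ' - 1) = 0` on `W` for `σ, σ' ∈ I`.
(Tr) `Z := z_{σσ'g} - z_{σg} - c_σ z_{σ'g} + c_σ z_g`:  `a(Z) = (σ-c_σ)(σ'-1) g + c_σ c_g g⁻¹ σ'⁻¹ (σ'-c_σ')(σ-1) σ⁻¹`, so `a(eZ) = 0`, `eZ ∈ p^n 𝕋`, `π(e)` is a unit:
    `tr((ρσ - δ_σ)(ρσ' - 1) ρg) ∈ 𝔪_T^n` for all `n`, `δ_σ = det ρσ`; `S31.eq_zero_of_trace`: `(ρσ - δ_σ)(ρσ' - 1) = 0`.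
(L) `δ₀ - 1` is a unit of `T`; `V = ker(ρσ₀ - δ₀) ⊕ ker(ρσ₀ - 1)`, both free (`T` local), of rank one (`det ρσ₀ = δ₀ ≠ 1, δ₀²`…, or reduce mod `𝔪_T`);
    `L := ker(ρσ₀ - δ₀) = im(ρσ₀ - 1)`; `(ρσ - 1)V ⊆ L` for `σ ∈ I`; `ρ(d) L = im(ρ(dσ₀d⁻¹) - 1) ⊆ L` for `d ∈ D` (`I` is normal in `D`).
-/

set_option autoImplicit false

namespace Fermat.Agent.S33

open Fermat.Agent.S29 (Qb GQ)
open Fermat.Agent.S31
open Fermat.Agent.S53 (Gal M2 HasMatrix HasMatrixRes)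

namespace Alg

/-- integers congruent modulo `M` act in the same way on a group killed by `M` -/
theorem zsmul_congr {W : Type*} [AddCommGroup W] (M : ℕ) (x y : ℤ) (h : (x : ZMod M) = (y : ZMod M))
    (w : W) (hw : M • w = 0) : x • w = y • w := by
  obtain ⟨k, hk⟩ := (ZMod.intCast_eq_intCast_iff_dvd_sub x y M).mp h
  have : y = x + k * M := by linarith
  rw [this, add_smul, mul_smul, natCast_zsmul, hw, smul_zero, add_zero]

theorem nsmul_congr {W : Type*} [AddCommGroup W] (M : ℕ) (x y : ℕ) (h : (x : ZMod M) = (y : ZMod M))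
    (w : W) (hw : M • w = 0) : x • w = y • w := by
  have := zsmul_congr M (x : ℤ) (y : ℤ) (by push_cast; exact h) w hw
  rwa [natCast_zsmul, natCast_zsmul] at this

/-- an integer prime to `p` is invertible modulo `p ^ m` -/
theorem exists_inv_nat {p : ℕ} (hp : p.Prime) (m : ℕ) (x : ℤ) (hx : (x : ZMod p) ≠ 0) :
    ∃ d : ℕ, ((d : ℤ) * x : ZMod (p ^ m)) = 1 := by
  have : NeZero (p ^ m) := ⟨pow_ne_zero _ hp.ne_zero⟩
  have h1 : IsCoprime x ((p : ℤ) ^ m) := by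
    apply IsCoprime.pow_right
    rw [isCoprime_comm, (Nat.prime_iff_prime_int.mp hp).coprime_iff_not_dvd]
    intro hd
    exact hx ((ZMod.intCast_zmod_eq_zero_iff_dvd x p).mpr hd)
  obtain ⟨u, v, huv⟩ := h1
  refine ⟨((u : ZMod (p ^ m))).val, ?_⟩
  have := congrArg (Int.cast : ℤ → ZMod (p ^ m)) huv
  push_cast at this
  have h0 : ((p : ZMod (p ^ m))) ^ m = 0 := by
    have := ZMod.natCast_self (p ^ m)
    push_cast at this
    exact this
  rw [h0, mul_zero, add_zero] at this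
  push_cast
  rw [ZMod.natCast_val, ZMod.cast_id', id]
  exact this

end Alg

open Alg

variable {p : ℕ} {N : ℕ} [NeZero N] {S : Finset ℕ}
  {𝒪 : Type} [CommRing 𝒪] [IsDomain 𝒪] [IsDiscreteValuationRing 𝒪]
  [IsAdicComplete (IsLocalRing.maximalIdeal 𝒪) 𝒪]
  {θ : CuspForm.heckeAlgebra N 2 (↑S : Set ℕ) →+* IsLocalRing.ResidueField 𝒪}
  {T : Type} [CommRing T] [IsLocalRing T] [IsNoetherianRing T]
  [IsAdicComplete (IsLocalRing.maximalIdeal T) T] [Algebra 𝒪 T] [IsLocalHom (algebraMap 𝒪 T)]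
  [Module.Finite 𝒪 T] [Module.Free 𝒪 T]

theorem natCast_mem_maximalIdeal (hp𝒪 : (p : 𝒪) ∈ IsLocalRing.maximalIdeal 𝒪) :
    (p : T) ∈ IsLocalRing.maximalIdeal T := by
  have h1 : algebraMap 𝒪 T (p : 𝒪) ∈ IsLocalRing.maximalIdeal T :=
    map_nonunit (algebraMap 𝒪 T) _ hp𝒪
  rwa [map_natCast] at h1

set_option maxHeartbeats 1600000 in
/-- the main congruence, and the exponent of `σ₀` -/
theorem trace_mem [Finite (IsLocalRing.ResidueField 𝒪)] (hp : p.Prime)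
    (hp𝒪 : (p : 𝒪) ∈ IsLocalRing.maximalIdeal 𝒪) (hpS : p ∈ S)
    (hNS : ∀ q : ℕ, q.Prime → q ∣ N → q ∈ S)
    (hES : ESInterfaceO N (↑S : Set ℕ) p)
    (H : CuspForm.HeckeGaloisRepDatum N (↑S : Set ℕ) 𝒪 θ T)
    (hres : (GaloisRepAdic.ofResidualGaloisRep H.ρ.residual).IsOrdinaryAt p)
    (P : ValuationSubring Qb) (hP : P.LiesOverPrime p)
    (σ₀ : GQ) (hσ₀ : σ₀ ∈ P.inertiaSubgroupIn ℚ) (hζ : ∃ ζ : Qb, ζ ^ p = 1 ∧ σ₀ ζ ≠ ζ) (n : ℕ) :
    IsUnit (LinearMap.det (H.ρ.ρ σ₀) - 1) ∧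
    ∀ σ ∈ P.inertiaSubgroupIn ℚ, ∀ σ' ∈ P.inertiaSubgroupIn ℚ, ∀ g : GQ,
      H.ρ.trace (σ * σ' * g) - H.ρ.trace (σ * g) - LinearMap.det (H.ρ.ρ σ) * H.ρ.trace (σ' * g)
        + LinearMap.det (H.ρ.ρ σ) * H.ρ.trace g ∈ IsLocalRing.maximalIdeal T ^ n := by
  classical
  obtain ⟨m, W, _, act, a, hnm, hfin, hkill, hlev, hcomm, ES1, hOrd, ES3⟩ := hES (n + 1)
  obtain ⟨z, c, hz1, hz2, hz3, hcmul, hcone, hcmu⟩ := exists_zdata hp hpS hNS H (n + 1) m act a hlev ES1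
  have hm1 : 1 ≤ m := le_trans (Nat.le_add_left 1 n) hnm
  have hpT : (p : T) ∈ IsLocalRing.maximalIdeal T := natCast_mem_maximalIdeal hp𝒪
  have hle : IsLocalRing.maximalIdeal T ^ (n + 1) ≤ IsLocalRing.maximalIdeal T :=
    Ideal.pow_le_self (Nat.succ_ne_zero n)
  let _ : Module (CuspForm.heckeAlgebra N 2 (↑S : Set ℕ)) W := Module.compHom W a
  have hsmul : ∀ (t : CuspForm.heckeAlgebra N 2 (↑S : Set ℕ)) (w : W), t • w = a t w := fun _ _ => rfl
  let act' : GQ →* Module.End (CuspForm.heckeAlgebra N 2 (↑S : Set ℕ)) W :=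
    { toFun := fun g =>
        { toFun := fun w => act g w
          map_add' := fun x y => map_add (act g) x y
          map_smul' := fun t w => by
            have := congrArg (fun f => f w) (hcomm t g).eq
            exact this.symm }
      map_one' := by
        ext w
        show act 1 w = w
        rw [map_one]; rfl
      map_mul' := fun g h => by
        ext w
        show act (g * h) w = act g (act h w)
        rw [map_mul]; rfl }
  have hact' : ∀ g w, act' g w = act g w := fun _ _ => rfl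
  obtain ⟨r, hr⟩ := Fermat.Agent.S53.exists_hasMatrix H.ρ
  have hrres := Fermat.Agent.S53.HasMatrix.residual hr
  set rb : Gal → M2 (IsLocalRing.ResidueField T) := fun σ => (r σ).map (IsLocalRing.residue T) with hrb
  let θ' : CuspForm.heckeAlgebra N 2 (↑S : Set ℕ) →+* IsLocalRing.ResidueField T :=
    (IsLocalRing.residue T).comp H.π
  have hθ' : ∀ t, θ' t = IsLocalRing.residue T (H.π t) := fun _ => rfl
  have hres_eq : ∀ x y : T, x - y ∈ IsLocalRing.maximalIdeal T ^ (n + 1) →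
      IsLocalRing.residue T x = IsLocalRing.residue T y := by
    intro x y hxy
    rw [← sub_eq_zero, ← map_sub]
    exact (IsLocalRing.residue_eq_zero_iff _).mpr (hle hxy)
  have htr : ∀ g, H.ρ.trace g = (r g).trace := by
    intro g
    obtain ⟨b, hb⟩ := hr
    unfold GaloisRepAdic.trace
    rw [LinearMap.trace_eq_matrix_trace T b, hb]
  have hdet : ∀ g, LinearMap.det (H.ρ.ρ g) = (r g).det := by
    intro g
    obtain ⟨b, hb⟩ := hr
    rw [← LinearMap.det_toMatrix b, hb]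
  have hES' : IsES act' θ' rb z c :=
    { r_one := HasMatrixRes.one hrres
      r_mul := HasMatrixRes.mul hrres
      span := span_eq_top_field H.ρ.residual H.residual_absIrr rb hrres
      θ_inv := by
        intro t ht
        have h1 : θ' t = IsLocalRing.ResidueField.map (algebraMap 𝒪 T) (θ t) := H.residue_π t
        have h2 : θ t ≠ 0 := by
          intro h0
          rw [h1, h0, map_zero] at ht
          exact ht rfl
        have : Fintype (IsLocalRing.ResidueField 𝒪) := Fintype.ofFinite _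
        have h3 := FiniteField.pow_card_sub_one_eq_one (θ t) h2
        have h4 : 1 < Fintype.card (IsLocalRing.ResidueField 𝒪) := Fintype.one_lt_card
        refine ⟨t ^ (Fintype.card (IsLocalRing.ResidueField 𝒪) - 2), ?_⟩
        rw [← pow_succ']
        have h5 : Fintype.card (IsLocalRing.ResidueField 𝒪) - 2 + 1 =
            Fintype.card (IsLocalRing.ResidueField 𝒪) - 1 := by omega
        rw [h5]
        have h6 : θ' (t ^ (Fintype.card (IsLocalRing.ResidueField 𝒪) - 1)) =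
            IsLocalRing.ResidueField.map (algebraMap 𝒪 T)
              (θ (t ^ (Fintype.card (IsLocalRing.ResidueField 𝒪) - 1))) := H.residue_π _
        rw [h6, map_pow, h3, map_one]
      hz := by
        intro g w
        rw [hsmul, hz2]
        show act g w + (c g : AddMonoid.End W) (act g⁻¹ w) = act g w + c g • act g⁻¹ w
        rw [AddMonoid.End.natCast_apply]
      θz := by
        intro g
        rw [hθ', ← hres_eq _ _ (hz1 g), htr]
        exact AddMonoidHom.map_trace (IsLocalRing.residue T).toAddMonoidHom (r g)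
      c_mul := by
        intro g h w
        rw [← mul_smul]
        exact nsmul_congr (p ^ m) _ _ (by rw [hcmul]; push_cast; rfl) w (hkill w)
      c_one := by
        intro w
        have := nsmul_congr (p ^ m) (c 1) 1 (by rw [hcone]; simp) w (hkill w)
        rwa [one_smul] at this
      c_det := by
        intro g
        have h1 := hres_eq _ _ (hz3 g)
        rw [map_natCast, hdet] at h1
        rw [← h1]
        exact RingHom.map_det (IsLocalRing.residue T) (r g) }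
  set I := P.inertiaSubgroupIn ℚ with hI
  -- exponents on `μ_p`
  have hcmu' : ∀ (g : GQ) (μ : Qb), μ ^ p = 1 → g μ = μ ^ c g := by
    intro g μ hμ
    apply hcmu g μ
    obtain ⟨m', rfl⟩ : ∃ m', m = m' + 1 := ⟨m - 1, by omega⟩
    rw [pow_succ', pow_mul, hμ, one_pow]
  have hc0 : (c σ₀ : ZMod p) ≠ 1 := natCast_ne_one_of_moves σ₀ (c σ₀) (hcmu' σ₀) hζ
  have hunit : ∃ d : ℕ, ∀ w : W, d • (c σ₀ • w - w) = w := by
    obtain ⟨d, hd⟩ := exists_inv_nat hp m ((c σ₀ : ℤ) - 1) (by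
      push_cast
      exact sub_ne_zero.mpr hc0)
    refine ⟨d, fun w => ?_⟩
    have h1 := zsmul_congr (p ^ m) ((d : ℤ) * ((c σ₀ : ℤ) - 1)) 1 (by push_cast at hd ⊢; exact hd) w
      (hkill w)
    rw [one_smul] at h1
    conv_rhs => rw [← h1]
    rw [mul_smul, sub_smul, one_smul, natCast_zsmul, natCast_zsmul]
  have hpθ : θ' (p : CuspForm.heckeAlgebra N 2 (↑S : Set ℕ)) = 0 := by
    rw [hθ', map_natCast]
    exact (IsLocalRing.residue_eq_zero_iff _).mpr hpT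
  have hptors : ∀ x ∈ tors W θ', p • x = 0 := by
    intro x hx
    have := hx _ hpθ
    rwa [Nat.cast_smul_eq_nsmul] at this
  have hord : ∀ x ∈ AddSubgroup.closure {y : W | ∃ σ ∈ I, ∃ w : W, y = act' σ w - w},
      x ∈ tors W θ' → act' σ₀ x = x →
      (∀ σ ∈ I, ∀ σ' ∈ I, act' σ (act' σ' x - x) = c σ • (act' σ' x - x)) → x = 0 := by
    intro x hx hxt hx0 hxq
    refine hOrd P hP σ₀ hσ₀ hζ x hx (hptors x hxt) hx0 ?_
    intro σ hσ σ' hσ' c' hc'
    have h1 := hxq σ hσ σ' hσ'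
    have h2 : act σ (act σ' x - x) = c σ • (act σ' x - x) := h1
    rw [h2]
    refine nsmul_congr p _ _ (natCast_eq_of_roots hp σ _ _ (hcmu' σ) hc') _ ?_
    apply hptors
    exact (tors W θ').sub_mem (map_mem_tors (act' σ') hxt) hxt
  obtain ⟨e, s, he1, hes⟩ := exists_idem (W := W) θ'
  let M : Submodule (CuspForm.heckeAlgebra N 2 (↑S : Set ℕ)) W :=
    LinearMap.range (LinearMap.lsmul (CuspForm.heckeAlgebra N 2 (↑S : Set ℕ)) W e)
  have hMmem : ∀ w : W, e • w ∈ M := fun w => ⟨w, rfl⟩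
  have hM : ∀ g, ∀ w ∈ M, act' g w ∈ M := by
    rintro g _ ⟨w, rfl⟩
    exact ⟨act' g w, (map_smul (act' g) e w).symm⟩
  have hsM : ∀ x ∈ (RingHom.ker θ') ^ s, ∀ w ∈ M, x • w = 0 := by
    rintro x hx _ ⟨w, rfl⟩
    have := hes x hx w
    rwa [mul_smul] at this
  have hO1 := hES'.ord I σ₀ hσ₀
    (fun σ hσ σ' hσ' => res_ord H.ρ.residual rb hrres p hres P hP σ hσ σ' hσ') hunit hord M hM s hsM
  constructor
  · -- the unit
    have hchar : CharP (IsLocalRing.ResidueField T) p := by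
      rw [CharP.charP_iff_prime_eq_zero hp, ← map_natCast (IsLocalRing.residue T)]
      exact (IsLocalRing.residue_eq_zero_iff _).mpr hpT
    by_contra hnu
    have h1 : IsLocalRing.residue T (LinearMap.det (H.ρ.ρ σ₀) - 1) = 0 :=
      (IsLocalRing.residue_eq_zero_iff _).mpr hnu
    rw [map_sub, map_one, hres_eq _ _ (hz3 σ₀), map_natCast, sub_eq_zero] at h1
    have h2 : ((c σ₀ : ℕ) : IsLocalRing.ResidueField T) = ((1 : ℕ) : IsLocalRing.ResidueField T) := by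
      rw [h1, Nat.cast_one]
    have h3 := (CharP.natCast_eq_natCast (IsLocalRing.ResidueField T) p).mp h2
    apply hc0
    have h4 := (ZMod.natCast_eq_natCast_iff _ _ _).mpr h3
    rwa [Nat.cast_one] at h4
  · intro σ hσ σ' hσ' g
    apply Ideal.pow_le_pow_right (Nat.le_succ n)
    set Z := z (σ * σ' * g) - z (σ * g) - c σ • z (σ' * g) + c σ • z g with hZ
    have hZ0 : a (e * Z) = 0 := by
      ext w
      have h1 := hES'.tr_zero I M hM hO1 σ hσ σ' hσ' g (e • w) (hMmem w)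
      rw [← hZ, ← mul_smul, mul_comm] at h1
      exact h1
    obtain ⟨y, hy⟩ := ES3 _ hZ0
    have hπe : IsUnit (H.π e) := by
      by_contra hnu
      have h1 : IsLocalRing.residue T (H.π e) = 0 := (IsLocalRing.residue_eq_zero_iff _).mpr hnu
      rw [← hθ', he1] at h1
      exact one_ne_zero h1
    have hπZ : H.π Z ∈ IsLocalRing.maximalIdeal T ^ (n + 1) := by
      have h1 : H.π e * H.π Z ∈ IsLocalRing.maximalIdeal T ^ (n + 1) := by
        rw [← map_mul, hy, map_nsmul, nsmul_eq_mul, Nat.cast_pow]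
        exact Ideal.mul_mem_right _ _ (Ideal.pow_mem_pow hpT (n + 1))
      obtain ⟨u, hu⟩ := hπe
      have h2 : H.π Z = (↑u⁻¹ : T) * (H.π e * H.π Z) := by
        rw [← hu, ← mul_assoc, Units.inv_mul, one_mul]
      rw [h2]
      exact Ideal.mul_mem_left _ _ h1
    have hπZ' : H.π Z = H.π (z (σ * σ' * g)) - H.π (z (σ * g)) - (c σ : T) * H.π (z (σ' * g))
        + (c σ : T) * H.π (z g) := by
      rw [hZ, map_add, map_sub, map_sub, map_nsmul, map_nsmul, nsmul_eq_mul, nsmul_eq_mul]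
    set δ := LinearMap.det (H.ρ.ρ σ) with hδ
    have key : H.ρ.trace (σ * σ' * g) - H.ρ.trace (σ * g) - δ * H.ρ.trace (σ' * g)
        + δ * H.ρ.trace g =
        (H.ρ.trace (σ * σ' * g) - H.π (z (σ * σ' * g))) - (H.ρ.trace (σ * g) - H.π (z (σ * g)))
        - δ * (H.ρ.trace (σ' * g) - H.π (z (σ' * g))) + δ * (H.ρ.trace g - H.π (z g))
        + H.π Z - (δ - (c σ : T)) * H.π (z (σ' * g)) + (δ - (c σ : T)) * H.π (z g) := by
      rw [hπZ']; ring
    rw [key]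
    refine Ideal.add_mem _ (Ideal.sub_mem _ (Ideal.add_mem _ (Ideal.add_mem _ (Ideal.sub_mem _
      (Ideal.sub_mem _ (hz1 _) (hz1 _)) (Ideal.mul_mem_left _ _ (hz1 _)))
      (Ideal.mul_mem_left _ _ (hz1 _))) hπZ) (Ideal.mul_mem_right _ _ (hz3 σ)))
      (Ideal.mul_mem_right _ _ (hz3 σ))

/-- **S33 from the Eichler–Shimura interface with the ordinarity clause** -/
theorem isOrdinaryAt_of_ES [Finite (IsLocalRing.ResidueField 𝒪)] [CharZero 𝒪] (hp : p.Prime) (hp2 : p ≠ 2)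
    (hp𝒪 : (p : 𝒪) ∈ IsLocalRing.maximalIdeal 𝒪) (hpS : p ∈ S)
    (hNS : ∀ q : ℕ, q.Prime → q ∣ N → q ∈ S)
    (hES : ESInterfaceO N (↑S : Set ℕ) p)
    (hσ₀ : ∀ P : ValuationSubring Qb, P.LiesOverPrime p →
      ∃ σ₀ ∈ P.inertiaSubgroupIn ℚ, ∃ ζ : Qb, ζ ^ p = 1 ∧ σ₀ ζ ≠ ζ)
    (H : CuspForm.HeckeGaloisRepDatum N (↑S : Set ℕ) 𝒪 θ T)
    (hres : (GaloisRepAdic.ofResidualGaloisRep H.ρ.residual).IsOrdinaryAt p) :
    H.ρ.IsOrdinaryAt p := by
  intro P hP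
  obtain ⟨σ₀, hσ₀I, hζ⟩ := hσ₀ P hP
  have key := trace_mem hp hp𝒪 hpS hNS hES H hres P hP σ₀ hσ₀I hζ
  refine exists_line H.ρ.finrank_eq H.ρ.ρ (P.inertiaSubgroupIn ℚ) (P.decompositionSubgroup ℚ)
    (inertia_normal P) σ₀ hσ₀I (key 0).1 ?_
  intro σ hσ σ' hσ'
  obtain ⟨r, hr⟩ := Fermat.Agent.S53.exists_hasMatrix H.ρ
  have hmul := Fermat.Agent.S53.HasMatrix.map_mul hr
  have hH : IsHausdorff (IsLocalRing.maximalIdeal T) T := inferInstance
  have htr : ∀ g, H.ρ.trace g = (r g).trace := by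
    intro g
    obtain ⟨b, hb⟩ := hr
    unfold GaloisRepAdic.trace
    rw [LinearMap.trace_eq_matrix_trace T b, hb]
  have h0 := eq_zero_of_trace H.ρ H.residual_absIrr r hr
    ((r σ - LinearMap.det (H.ρ.ρ σ) • (1 : M2 T)) * (r σ' - 1)) (fun g => by
      have e1 : ((r σ - LinearMap.det (H.ρ.ρ σ) • (1 : M2 T)) * (r σ' - 1) * r g) =
          r (σ * σ' * g) - r (σ * g) - LinearMap.det (H.ρ.ρ σ) • r (σ' * g)
            + LinearMap.det (H.ρ.ρ σ) • r g := by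
        rw [hmul, hmul, hmul, hmul]
        simp only [sub_mul, mul_sub, smul_mul_assoc, one_mul, mul_one, smul_sub]
        abel
      rw [e1, Matrix.trace_add, Matrix.trace_sub, Matrix.trace_sub, Matrix.trace_smul,
        Matrix.trace_smul, ← htr, ← htr, ← htr, ← htr, smul_eq_mul, smul_eq_mul]
      apply hH.haus
      intro n
      rw [SModEq.zero, smul_eq_mul, Ideal.mul_top]
      exact (key n).2 σ hσ σ' hσ' g)
  obtain ⟨b, hb⟩ := hr
  apply (LinearMap.toMatrix b b).injective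
  rw [map_zero, ← h0, ← hb, ← hb]
  rw [LinearMap.toMatrix_mul, map_sub, map_sub, map_smul, LinearMap.toMatrix_one]

end Fermat.Agent.S33
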