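import Fermat.Agent.S33.Alg.Core

/-!
# key `S33/ALG-COMM` : `IsES.le_of_comm`
There are `g, g', w` with `s = tr ((r g r g' - r g' r g) r w) ≠ 0`: otherwise `X = r g r g' - r g' r g` has `tr (X Y) = 0` for all `Y ∈ span = ⊤`, so `X = 0`
(test with `Matrix.single`), all `r g` commute, hence (span) `M₂(k)` is commutative: false.
`t = z (g g' w) - z (g' g w)`, `θ t = s`.  For `u ∈ U''`:  `t • u = (g g' - g' g)(w u) + c_{g g' w} w⁻¹ (g'⁻¹ g⁻¹ - g⁻¹ g'⁻¹) u ∈ U'`
(`c_{g g' w} = c_{g' g w}` on `W` by `c_mul`).  `θ (t t') = 1`: `t t' - 1 ∈ 𝔪` kills `u`, so `u = t' • (t • u) ∈ U'`.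

-/

set_option autoImplicit false

namespace Fermat.Agent.S33.Alg

variable {𝕋 W G k : Type*} [CommRing 𝕋] [AddCommGroup W] [Module 𝕋 W] [Group G] [Field k]
  {act : G →* Module.End 𝕋 W} {θ : 𝕋 →+* k} {r : G → Matrix (Fin 2) (Fin 2) k}
  {z : G → 𝕋} {c : G → ℕ}

/-- [S33/ALG-COMM] -/
theorem IsES.le_of_comm (h : IsES act θ r z c) (U' U'' : Submodule 𝕋 W) (hU : U'' ≤ tors W θ)
    (hs' : ∀ g, ∀ u ∈ U', act g u ∈ U') (hs'' : ∀ g, ∀ u ∈ U'', act g u ∈ U'')
    (hcomm : ∀ g g', ∀ u ∈ U'', act g (act g' u) - act g' (act g u) ∈ U') : U'' ≤ U' := by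
  classical
  have htop : ∀ Y : Matrix (Fin 2) (Fin 2) k, Y ∈ Submodule.span k (Set.range r) := fun Y => by
    rw [h.span]; trivial
  obtain ⟨g, g', w, hs⟩ : ∃ g g' w, ((r g * r g' - r g' * r g) * r w).trace ≠ 0 := by
    by_contra hcon
    push Not at hcon
    have h1 : ∀ g g', r g * r g' = r g' * r g := by
      intro g g'
      rw [← sub_eq_zero]
      apply Matrix.ext_iff_trace_mul_right.mpr
      intro Y
      rw [zero_mul, Matrix.trace_zero]
      induction htop Y using Submodule.span_induction with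
      | mem y hy => obtain ⟨w, rfl⟩ := hy; exact hcon g g' w
      | zero => simp
      | add a b _ _ ha hb => rw [mul_add, Matrix.trace_add, ha, hb, add_zero]
      | smul c a _ ha => rw [Matrix.mul_smul, Matrix.trace_smul, ha, smul_zero]
    have h2 : ∀ (A : Matrix (Fin 2) (Fin 2) k) g, A * r g = r g * A := by
      intro A g
      induction htop A using Submodule.span_induction with
      | mem y hy => obtain ⟨w, rfl⟩ := hy; exact h1 w g
      | zero => simp
      | add a b _ _ ha hb => rw [add_mul, mul_add, ha, hb]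
      | smul c a _ ha => rw [Matrix.smul_mul, Matrix.mul_smul, ha]
    have h3 : ∀ A B : Matrix (Fin 2) (Fin 2) k, A * B = B * A := by
      intro A B
      induction htop B using Submodule.span_induction with
      | mem y hy => obtain ⟨w, rfl⟩ := hy; exact h2 A w
      | zero => simp
      | add a b _ _ ha hb => rw [add_mul, mul_add, ha, hb]
      | smul c a _ ha => rw [Matrix.smul_mul, Matrix.mul_smul, ha]
    have h4 := h3 !![0, 1; 0, 0] !![0, 0; 1, 0]
    have h5 := congrFun (congrFun h4 0) 0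
    simp [Matrix.mul_apply, Fin.sum_univ_two] at h5
  set t : 𝕋 := z (g * g' * w) - z (g' * g * w) with ht
  have hθt : θ t ≠ 0 := by
    rw [ht, map_sub, h.θz, h.θz, h.r_mul, h.r_mul, h.r_mul, h.r_mul, ← Matrix.trace_sub, ← sub_mul]
    exact hs
  obtain ⟨t', ht'⟩ := h.θ_inv t hθt
  intro u hu
  have hcc : ∀ x : W, c (g' * g * w) • x = c (g * g' * w) • x := by
    intro x
    rw [h.c_mul, h.c_mul, h.c_mul, h.c_mul, smul_comm (c g') (c g)]
  have htu : t • u ∈ U' := by
    have e1 : t • u = (act g (act g' (act w u)) - act g' (act g (act w u))) +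
        c (g * g' * w) • act w⁻¹ (act g'⁻¹ (act g⁻¹ u) - act g⁻¹ (act g'⁻¹ u)) := by
      rw [ht, sub_smul, h.hz, h.hz, hcc]
      simp only [mul_inv_rev, map_mul, Module.End.mul_apply, map_sub, smul_sub]
      abel
    rw [e1]
    exact U'.add_mem (hcomm g g' _ (hs'' w u hu))
      (U'.smul_of_tower_mem _ (hs' w⁻¹ _ (hcomm g'⁻¹ g⁻¹ u hu)))
  have e2 : (t * t') • u = (1 : 𝕋) • u := smul_eq_of_mem_tors (hU hu) (by rw [ht', map_one])
  rw [one_smul, mul_comm, mul_smul] at e2
  rw [← e2]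
  exact U'.smul_mem t' htu

end Fermat.Agent.S33.Alg
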