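import Mathlib

/-!
# S33/ALG-CORE : the abstract core of the ordinarity argument : definitions  (Mathlib only; helper14)

SETTING.  `𝕋` a commutative ring, `W` a `𝕋`-module, `G` a group acting `𝕋`-linearly (`act`), `θ : 𝕋 → k`, `𝔪 = ker θ`, `U = tors W θ = W[𝔪]`,
`r : G → M₂(k)` multiplicative with `span = ⊤`, `z : G → 𝕋`, `c : G → ℕ` with  `z g = g + c_g g⁻¹` on `W`, `θ (z g) = tr r g`, `c_g = det r g` in `k`,
`c` multiplicative on `W`  (structure `IsES`).

Files: `Comm.lean` (key S33/ALG-COMM), `TL.lean` (S33/ALG-TL), `E.lean` (S33/ALG-E), `Ord.lean` (S33/ALG-ORD).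
-/

set_option autoImplicit false

namespace Fermat.Agent.S33.Alg

variable {𝕋 W G k : Type*} [CommRing 𝕋] [AddCommGroup W] [Module 𝕋 W] [Group G] [Field k]

/-- `W[𝔪]`, `𝔪 = ker θ` -/
def tors (W : Type*) [AddCommGroup W] [Module 𝕋 W] (θ : 𝕋 →+* k) : Submodule 𝕋 W where
  carrier := {w | ∀ x, θ x = 0 → x • w = 0}
  add_mem' := fun {a b} ha hb x hx => by rw [smul_add, ha x hx, hb x hx, add_zero]
  zero_mem' := fun x _ => smul_zero x
  smul_mem' := fun t w hw x hx => by rw [smul_comm, hw x hx, smul_zero]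

theorem mem_tors {θ : 𝕋 →+* k} {w : W} : w ∈ tors W θ ↔ ∀ x, θ x = 0 → x • w = 0 := Iff.rfl

/-- `W[𝔪]` is stable under `𝕋`-linear maps -/
theorem map_mem_tors {θ : 𝕋 →+* k} (f : Module.End 𝕋 W) {w : W} (hw : w ∈ tors W θ) :
    f w ∈ tors W θ := fun x hx => by rw [← map_smul, hw x hx, map_zero]

/-- on `W[𝔪]` the action of `𝕋` factors through `θ` -/
theorem smul_eq_of_mem_tors {θ : 𝕋 →+* k} {w : W} (hw : w ∈ tors W θ) {x y : 𝕋} (h : θ x = θ y) :
    x • w = y • w := by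
  have := hw (x - y) (by rw [map_sub, h, sub_self])
  rwa [sub_smul, sub_eq_zero] at this

/-- the hypotheses of the abstract argument -/
structure IsES (act : G →* Module.End 𝕋 W) (θ : 𝕋 →+* k) (r : G → Matrix (Fin 2) (Fin 2) k)
    (z : G → 𝕋) (c : G → ℕ) : Prop where
  r_one : r 1 = 1
  r_mul : ∀ g h, r (g * h) = r g * r h
  span : Submodule.span k (Set.range r) = ⊤
  θ_inv : ∀ t, θ t ≠ 0 → ∃ t', θ (t * t') = 1
  hz : ∀ g (w : W), z g • w = act g w + c g • act g⁻¹ w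
  θz : ∀ g, θ (z g) = (r g).trace
  c_mul : ∀ g h (w : W), c (g * h) • w = c g • c h • w
  c_one : ∀ w : W, c 1 • w = w
  c_det : ∀ g, (c g : k) = (r g).det

end Fermat.Agent.S33.Alg
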