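import Fermat.Agent.S33.Alg.Comm

/-!
# key `S33/ALG-TL` : `IsES.transfer`, `IsES.transfer_quad`
`AX = ∑ n_i act (g_i)`, `AX' = ∑ n_i c_{g_i} act (g_i⁻¹)` (elements of `End_𝕋 W`).
(1) for `y : G`, `u ∈ U`:  `AX (y u) + c_y y⁻¹ (AX' u) = 0`:  it is `t • u`, `t = ∑ n_i z (g_i y)`, `θ t = tr ((∑ n_i r g_i) r y) = 0`.
(2) `y = 1`: `AX' u = - AX u`.   (3) so `AX (y u) = c_y y⁻¹ (AX u)`.
(4) `AX (y y' u) = c_{y y'} (y y')⁻¹ AX u = c_{y'} y'⁻¹ (c_y y⁻¹ AX u) = c_{y'} y'⁻¹ AX (y u) = AX (y' y u)`.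
(5) `le_of_comm` with `U'' = U`, `U' = U ⊓ ker AX` (`G`-stable by (3)).
`transfer_quad`: `ι = Fin 4`, elements `σσ', σ, σ', 1`, coefficients `1, -1, -d, d`.

-/

set_option autoImplicit false

namespace Fermat.Agent.S33.Alg

variable {𝕋 W G k : Type*} [CommRing 𝕋] [AddCommGroup W] [Module 𝕋 W] [Group G] [Field k]
  {act : G →* Module.End 𝕋 W} {θ : 𝕋 →+* k} {r : G → Matrix (Fin 2) (Fin 2) k}
  {z : G → 𝕋} {c : G → ℕ}

/-- [S33/ALG-TL] the transfer lemma -/
theorem IsES.transfer (h : IsES act θ r z c) {ι : Type*} (s : Finset ι) (n : ι → ℤ) (g : ι → G)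
    (hX : ∑ i ∈ s, n i • r (g i) = 0) (u : W) (hu : u ∈ tors W θ) :
    ∑ i ∈ s, n i • act (g i) u = 0 := by
  set AX : Module.End 𝕋 W := ∑ i ∈ s, n i • act (g i) with hAX
  set AX' : Module.End 𝕋 W := ∑ i ∈ s, (n i * (c (g i) : ℤ)) • act (g i)⁻¹ with hAX'
  have hAXa : ∀ w, AX w = ∑ i ∈ s, n i • act (g i) w := fun w => by
    simp [hAX, LinearMap.sum_apply]
  have hAX'a : ∀ w, AX' w = ∑ i ∈ s, (n i * (c (g i) : ℤ)) • act (g i)⁻¹ w := fun w => by
    rw [hAX', LinearMap.sum_apply]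
    rfl
  have h1 : ∀ (y : G) (u : W), u ∈ tors W θ → AX (act y u) + c y • act y⁻¹ (AX' u) = 0 := by
    intro y u hu
    have hθ : θ (∑ i ∈ s, n i • z (g i * y)) = 0 := by
      rw [map_sum]
      have : ∀ i ∈ s, θ (n i • z (g i * y)) = ((n i • r (g i)) * r y).trace := by
        intro i _
        rw [map_zsmul, h.θz, h.r_mul, Matrix.smul_mul, Matrix.trace_smul]
      rw [Finset.sum_congr rfl this, ← Matrix.trace_sum, ← Finset.sum_mul, hX, zero_mul,
        Matrix.trace_zero]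
    have h2 := hu _ hθ
    rw [Finset.sum_smul] at h2
    rw [← h2, hAXa, hAX'a, map_sum, Finset.smul_sum, ← Finset.sum_add_distrib]
    refine Finset.sum_congr rfl fun i _ => ?_
    rw [smul_assoc, h.hz, smul_add, map_mul, Module.End.mul_apply, mul_inv_rev, map_mul,
      Module.End.mul_apply, h.c_mul, map_zsmul]
    congr 1
    rw [← Nat.cast_smul_eq_nsmul ℤ (c y), ← Nat.cast_smul_eq_nsmul ℤ (c (g i)),
      ← Nat.cast_smul_eq_nsmul ℤ (c y)]
    simp only [smul_smul]
    congr 1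
    ring
  have h2 : ∀ u : W, u ∈ tors W θ → AX' u = - AX u := by
    intro u hu
    have := h1 1 u hu
    rw [map_one, inv_one, map_one, Module.End.one_apply, Module.End.one_apply, h.c_one] at this
    exact (neg_eq_of_add_eq_zero_right this).symm
  have h3 : ∀ (y : G) (u : W), u ∈ tors W θ → AX (act y u) = c y • act y⁻¹ (AX u) := by
    intro y u hu
    have := h1 y u hu
    rw [h2 u hu, map_neg, smul_neg] at this
    exact sub_eq_zero.mp (by rw [sub_eq_add_neg]; exact this)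
  have h4 : ∀ (y y' : G) (u : W), u ∈ tors W θ →
      AX (act y (act y' u)) = AX (act y' (act y u)) := by
    intro y y' u hu
    have e1 : act y (act y' u) = act (y * y') u := by rw [map_mul, Module.End.mul_apply]
    rw [e1, h3 (y * y') u hu, h3 y' _ (map_mem_tors (act y) hu), h3 y u hu, h.c_mul, mul_inv_rev,
      map_mul, Module.End.mul_apply, map_nsmul, smul_comm]
  have h5 : tors W θ ≤ tors W θ ⊓ LinearMap.ker AX := by
    apply h.le_of_comm _ _ le_rfl
    · intro y u hu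
      refine ⟨map_mem_tors (act y) hu.1, ?_⟩
      show AX (act y u) = 0
      rw [h3 y u hu.1, LinearMap.mem_ker.mp hu.2, map_zero, smul_zero]
    · intro y u hu
      exact map_mem_tors (act y) hu
    · intro y y' u hu
      refine ⟨(tors W θ).sub_mem (map_mem_tors _ (map_mem_tors _ hu))
        (map_mem_tors _ (map_mem_tors _ hu)), ?_⟩
      show AX (act y (act y' u) - act y' (act y u)) = 0
      rw [map_sub, h4 y y' u hu, sub_self]
  have h6 := LinearMap.mem_ker.mp (h5 hu).2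
  rw [hAXa] at h6
  exact h6

/-- [S33/ALG-TL] -/
theorem IsES.transfer_quad (h : IsES act θ r z c) (σ σ' : G) (d : ℕ)
    (hX : (r σ - (d : k) • (1 : Matrix (Fin 2) (Fin 2) k)) * (r σ' - 1) = 0)
    (u : W) (hu : u ∈ tors W θ) :
    act σ (act σ' u - u) = d • (act σ' u - u) := by
  have hX' : ∑ i ∈ (Finset.univ : Finset (Fin 4)),
      (![1, -1, -(d : ℤ), (d : ℤ)] i) • r ((![σ * σ', σ, σ', 1] : Fin 4 → G) i) = 0 := by
    rw [Fin.sum_univ_four]
    simp only [Matrix.cons_val_zero, Matrix.cons_val_one, Matrix.cons_val]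
    rw [h.r_mul, h.r_one, ← hX]
    simp only [one_smul, neg_smul, natCast_zsmul, sub_mul, mul_sub, mul_one, Matrix.smul_mul,
      one_mul, ← Nat.cast_smul_eq_nsmul k]
    abel
  have h1 := h.transfer Finset.univ _ _ hX' u hu
  rw [Fin.sum_univ_four] at h1
  simp only [Matrix.cons_val_zero, Matrix.cons_val_one, Matrix.cons_val] at h1
  rw [map_mul, map_one, Module.End.mul_apply, Module.End.one_apply] at h1
  simp only [one_smul, neg_smul, natCast_zsmul] at h1
  rw [map_sub, smul_sub, ← sub_eq_zero, ← h1]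
  abel

end Fermat.Agent.S33.Alg
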